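import Mathlib

set_option autoImplicit false

namespace Fermat.Agent.H51

theorem isAlgebraic_Qbar : Algebra.IsAlgebraic ℚ (AlgebraicClosure ℚ) := by
  have h : ∀ a : Algebra ℚ (AlgebraicClosure ℚ),
      @Algebra.IsAlgebraic ℚ (AlgebraicClosure ℚ) _ _ a := by
    intro a
    have e : a = AlgebraicClosure.instAlgebra ℚ := Subsingleton.elim _ _
    rw [e]
    exact AlgebraicClosure.isAlgebraic ℚ
  exact h _

/-- `AlgebraicClosure ℚ / ℚ` for the default (`DivisionRing.toRatAlgebra`) algebra structure. -/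
theorem isAlgClosure_Qbar : IsAlgClosure ℚ (AlgebraicClosure ℚ) :=
  ⟨inferInstance, isAlgebraic_Qbar⟩

theorem isGalois_Qbar : IsGalois ℚ (AlgebraicClosure ℚ) := by
  have h := isAlgClosure_Qbar
  have h1 : Normal ℚ (AlgebraicClosure ℚ) := IsAlgClosure.normal ℚ _
  have h2 : Algebra.IsAlgebraic ℚ (AlgebraicClosure ℚ) := h.isAlgebraic
  have h3 : Algebra.IsSeparable ℚ (AlgebraicClosure ℚ) := inferInstance
  exact ⟨⟩

/-- An element of `ℚ̄` fixed by the Galois group is rational. -/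
theorem rational_of_fixed {x : AlgebraicClosure ℚ}
    (h : ∀ σ : AlgebraicClosure ℚ ≃ₐ[ℚ] AlgebraicClosure ℚ, σ x = x) :
    ∃ q : ℚ, algebraMap ℚ (AlgebraicClosure ℚ) q = x := by
  have h3 := isGalois_Qbar
  exact (InfiniteGalois.mem_range_algebraMap_iff_fixed (k := ℚ) (K := AlgebraicClosure ℚ) x).mpr h

end Fermat.Agent.H51
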