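import Fermat.Agent.H51.Identity

set_option autoImplicit false

namespace Fermat.Agent.H51

lemma sq_ne_twenty (t : ℚ) : t ^ 2 ≠ 20 := by
  intro h
  have h1 : IsSquare (20 : ℚ) := ⟨t, by rw [← h]; ring⟩
  revert h1
  decide +kernel

lemma contra_aux {c Δ : ℤ} (hΔ : Δ ≠ 0)
    (hss : ∀ p : ℕ, p.Prime → (p : ℤ) ∣ Δ → ¬ (p : ℤ) ∣ c) {A x f1 f2 f3 f4 D r0 : ℚ}
    (hA : A = -27 * c) (hD : D = -136048896 * Δ)
    (I1 : 16 * D + f4 ^ 2 * r0 = 0)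
    (I2 : r0 ^ 2 + 10 * r0 * f4 + 5 * f4 ^ 2 = -48 * A * f4)
    (I3 : 16 * x ^ 2 * D = f2 * f3 ^ 3)
    (hT : f4 ^ 5 * (f4 + 9 * f1) * f3 ^ 2 - 45 * f1 ^ 3 * f2 * f3 * f4 ^ 3
      - 81 * f1 ^ 5 * f2 ^ 2 * (f1 - f4) = 0)
    (hf10 : f1 ≠ 0) (hf20 : f2 ≠ 0) (hf30 : f3 ≠ 0) (hf40 : f4 ≠ 0)
    (h27 : 27 * f3 - 9 * f2 = 72 * x ^ 2) (h3 : 3 * f3 - 9 * f2 = -24 * A) : False := by
  have hc : (c : ℚ) = -A / 27 := by rw [hA]; ring
  have hΔ' : (Δ : ℚ) = -D / 136048896 := by rw [hD]; ring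
  refine no_semistable_point (c := c) (Δ := Δ) hΔ hss (t := r0 / f4) (h := -9 * f2 / f3)
    (G := -f3 * f4 ^ 2 / (f2 * f1 ^ 2)) (X := f3 * f4 ^ 3 / (9 * f2 * f1 ^ 3)) ?_ ?_ ?_ ?_ ?_ ?_
  · exact div_ne_zero (mul_ne_zero (neg_ne_zero.mpr hf30) (pow_ne_zero 2 hf40))
      (mul_ne_zero hf20 (pow_ne_zero 2 hf10))
  · exact div_ne_zero (mul_ne_zero hf30 (pow_ne_zero 3 hf40))
      (mul_ne_zero (mul_ne_zero (by norm_num) hf20) (pow_ne_zero 3 hf10))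
  · -- t
    have hq : (r0 / f4) ^ 2 + 10 * (r0 / f4) + 5 = -48 * A / f4 := by
      field_simp
      linear_combination I2
    rw [hq, hc, hΔ']
    field_simp
    linear_combination (136048896 * A ^ 3) * I1
  · -- h
    have h27' : -9 * f2 / f3 + 27 = 72 * x ^ 2 / f3 := by
      field_simp
      linear_combination h27
    have h3' : -9 * f2 / f3 + 3 = -24 * A / f3 := by
      field_simp
      linear_combination h3
    rw [h27', h3', hc, hΔ']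
    field_simp
    linear_combination (1224440064 * A ^ 3) * I3
  · -- X0(15) relation
    field_simp
    linear_combination (-1) * hT
  · field_simp
    ring

/-- No semistable data: `A, B` a short Weierstrass model, `x` the abscissa of a 3-torsion point,
`s, p` the sum and the product of the abscissae of `P`, `2P` for a 5-torsion point `P`. -/
theorem no_curve {c Δ : ℤ} (hΔ : Δ ≠ 0)
    (hss : ∀ p : ℕ, p.Prime → (p : ℤ) ∣ Δ → ¬ (p : ℤ) ∣ c) {s p A B x : ℚ}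
    (hA : A = -27 * c) (hD : 4 * A ^ 3 + 27 * B ^ 2 = -136048896 * Δ)
    (h1 : s * (s ^ 2 - 4 * p) = 2 * (s * (A + p) + 2 * B))
    (h2 : p * (s ^ 2 - 4 * p) = (p - A) ^ 2 - 4 * B * s)
    (h3 : 3 * x ^ 4 + 6 * A * x ^ 2 + 12 * B * x - A ^ 2 = 0) : False := by
  have hΔq : (Δ : ℚ) ≠ 0 := by exact_mod_cast hΔ
  have hD0 : 4 * A ^ 3 + 27 * B ^ 2 ≠ 0 := by
    rw [hD]; exact mul_ne_zero (by norm_num) hΔq
  have e2 : A^2 - 2*p*A + 2*A*s^2 + 5*p^2 + 5*p*s^2 - s^4 = 0 := by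
    linear_combination (-1) * h2 - s * h1
  have e3 : 3*x^4 + 6*A*x^2 + 3*(s^3 - 6*p*s - 2*A*s)*x - A^2 = 0 := by
    linear_combination h3 + 3 * x * h1
  have hT := level_fifteen_identity e2 e3
  obtain ⟨f1, hf1⟩ : ∃ f, f = x^2 - s*x + p := ⟨_, rfl⟩
  obtain ⟨f2, hf2⟩ : ∃ f, f = 3*A + x^2 := ⟨_, rfl⟩
  obtain ⟨f3, hf3⟩ : ∃ f, f = A + 3*x^2 := ⟨_, rfl⟩
  obtain ⟨f4, hf4⟩ : ∃ f, f = s^2 - 4*p := ⟨_, rfl⟩
  obtain ⟨D, hDdef⟩ : ∃ D, D = 4 * A ^ 3 + 27 * B ^ 2 := ⟨_, rfl⟩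
  obtain ⟨r0, hr0⟩ : ∃ r, r = 4*A + 40*p - 7*s^2 := ⟨_, rfl⟩
  rw [← hf1, ← hf2, ← hf3, ← hf4] at hT
  rw [← hDdef] at hD hD0
  have I1 : 16 * D + f4 ^ 2 * r0 = 0 := by
    rw [hDdef, hf4, hr0]
    linear_combination (-20*s^2 + 128*p + 64*A) * e2 +
      (-27) * (4*B + (s^3 - 6*p*s - 2*A*s)) * h1
  have I2 : r0 ^ 2 + 10 * r0 * f4 + 5 * f4 ^ 2 = -48 * A * f4 := by
    rw [hf4, hr0]
    linear_combination 16 * e2
  have I3 : 16 * x ^ 2 * D = f2 * f3 ^ 3 := by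
    rw [hDdef, hf2, hf3]
    linear_combination (-9*x^4 - 18*A*x^2 + 36*B*x + 3*A^2) * h3
  have hf40 : f4 ≠ 0 := by
    intro h0
    rw [h0] at I1
    apply hD0; linarith
  have hA0 : A ≠ 0 := by
    intro h0
    rw [h0] at I2
    apply sq_ne_twenty ((r0 + 5 * f4) / f4)
    field_simp
    linear_combination I2
  have hx0 : x ≠ 0 := by
    intro h0
    rw [h0] at h3
    apply hA0
    have : A ^ 2 = 0 := by linarith
    simpa using this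
  have hf23 : f2 * f3 ^ 3 ≠ 0 := by
    rw [← I3]
    exact mul_ne_zero (mul_ne_zero (by norm_num) (pow_ne_zero 2 hx0)) hD0
  have hf20 : f2 ≠ 0 := left_ne_zero_of_mul hf23
  have hf30 : f3 ≠ 0 := fun h => (right_ne_zero_of_mul hf23) (by rw [h]; ring)
  have hf10 : f1 ≠ 0 := by
    intro h0
    rw [h0] at hT
    have : f4 ^ 6 * f3 ^ 2 = 0 := by linear_combination hT
    exact (mul_ne_zero (pow_ne_zero 6 hf40) (pow_ne_zero 2 hf30)) this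
  exact contra_aux hΔ hss hA hD I1 I2 I3 hT hf10 hf20 hf30 hf40
    (by rw [hf2, hf3]; ring) (by rw [hf2, hf3]; ring)

end Fermat.Agent.H51
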