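import Fermat.Agent.H51.Torsion

set_option autoImplicit false
set_option linter.unusedSectionVars false

namespace Fermat.Agent.H51

open WeierstrassCurve WeierstrassCurve.Affine Polynomial

variable {K : Type*} [Field K] [DecidableEq K] {V : WeierstrassCurve.Affine K}

/-- Polynomial version of `psi2Sq`. -/
noncomputable def poly2 (V : WeierstrassCurve.Affine K) : K[X] :=
  C 4 * X ^ 3 + C V.b₂ * X ^ 2 + C (2 * V.b₄) * X + C V.b₆

/-- Polynomial version of `psi3`. -/
noncomputable def poly3 (V : WeierstrassCurve.Affine K) : K[X] :=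
  C 3 * X ^ 4 + C V.b₂ * X ^ 3 + C (3 * V.b₄) * X ^ 2 + C (3 * V.b₆) * X + C V.b₈

/-- Polynomial version of `psi5`. -/
noncomputable def poly5 (V : WeierstrassCurve.Affine K) : K[X] :=
  poly2 V ^ 4 - poly3 V * poly2 V ^ 2 * (C 6 * X ^ 2 + C V.b₂ * X + C V.b₄) + poly3 V ^ 3

lemma eval_poly2 (x : K) : (poly2 V).eval x = psi2Sq V x := by
  simp [poly2, psi2Sq]

lemma eval_poly3 (x : K) : (poly3 V).eval x = psi3 V x := by
  simp [poly3, psi3]

lemma eval_poly5 (x : K) : (poly5 V).eval x = psi5 V x := by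
  simp [poly5, psi5, eval_poly2, eval_poly3]

lemma natDegree_poly3 (h3 : (3 : K) ≠ 0) : (poly3 V).natDegree = 4 := by
  unfold poly3
  compute_degree!

lemma natDegree_poly5_le : (poly5 V).natDegree ≤ 12 := by
  unfold poly5 poly2 poly3
  compute_degree

lemma coeff_aux {R : Type*} [CommRing R] {p q r : R[X]} {a b c : R} (hp : p.natDegree ≤ 3)
    (hpc : p.coeff 3 = a) (hq : q.natDegree ≤ 4) (hqc : q.coeff 4 = b) (hr : r.natDegree ≤ 2)
    (hrc : r.coeff 2 = c) :
    (p ^ 4 - q * p ^ 2 * r + q ^ 3).coeff 12 = a ^ 4 - b * a ^ 2 * c + b ^ 3 := by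
  have h1 : (p ^ 4).coeff 12 = a ^ 4 := by
    rw [← hpc]; exact coeff_pow_of_natDegree_le (m := 4) (n := 3) hp
  have h2 : (p ^ 2).coeff 6 = a ^ 2 := by
    rw [← hpc]; exact coeff_pow_of_natDegree_le (m := 2) (n := 3) hp
  have h2d : (p ^ 2).natDegree ≤ 6 := natDegree_pow_le_of_le 2 hp
  have h3 : (q ^ 3).coeff 12 = b ^ 3 := by
    rw [← hqc]; exact coeff_pow_of_natDegree_le (m := 3) (n := 4) hq
  have h4 : (q * p ^ 2).coeff 10 = b * a ^ 2 := by
    rw [← hqc, ← h2]; exact coeff_mul_add_eq_of_natDegree_le (df := 4) (dg := 6) hq h2d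
  have h4d : (q * p ^ 2).natDegree ≤ 10 := natDegree_mul_le_of_le hq h2d
  have h5 : (q * p ^ 2 * r).coeff 12 = b * a ^ 2 * c := by
    rw [← hrc, ← h4]
    exact coeff_mul_add_eq_of_natDegree_le (df := 10) (dg := 2) h4d hr
  rw [coeff_add, coeff_sub, h1, h5, h3]

lemma coeff_poly5 : (poly5 V).coeff 12 = -5 := by
  have h2 : (poly2 V).natDegree ≤ 3 := by unfold poly2; compute_degree
  have h2c : (poly2 V).coeff 3 = 4 := by unfold poly2; compute_degree!
  have h3 : (poly3 V).natDegree ≤ 4 := by unfold poly3; compute_degree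
  have h3c : (poly3 V).coeff 4 = 3 := by unfold poly3; compute_degree!
  have hr : (C 6 * X ^ 2 + C V.b₂ * X + C V.b₄ : K[X]).natDegree ≤ 2 := by compute_degree
  have hrc : (C 6 * X ^ 2 + C V.b₂ * X + C V.b₄ : K[X]).coeff 2 = 6 := by compute_degree!
  unfold poly5
  rw [coeff_aux h2 h2c h3 h3c hr hrc]
  norm_num

lemma natDegree_poly5 (h5 : (5 : K) ≠ 0) : (poly5 V).natDegree = 12 := by
  apply le_antisymm natDegree_poly5_le
  apply le_natDegree_of_ne_zero
  rw [coeff_poly5]
  exact neg_ne_zero.mpr h5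

/-- Bounding torsion by a polynomial vanishing on abscissae. -/
lemma card_torsion_le {n : ℕ} {f : K[X]} (hf : f ≠ 0)
    (h : ∀ P : V.Point, P ≠ 0 → n • P = 0 → f.eval (xc P) = 0) :
    Finite (Submodule.torsionBy ℤ V.Point n) ∧
      Nat.card (Submodule.torsionBy ℤ V.Point n) ≤ 2 * f.natDegree + 1 := by
  classical
  let rep : K → V.Point := fun x => if hx : ∃ P : V.Point, P ≠ 0 ∧ xc P = x then hx.choose else 0
  have hrep : ∀ P : V.Point, P ≠ 0 → rep (xc P) ≠ 0 ∧ xc (rep (xc P)) = xc P := by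
    intro P hP
    have hx : ∃ Q : V.Point, Q ≠ 0 ∧ xc Q = xc P := ⟨P, hP, rfl⟩
    have : rep (xc P) = hx.choose := dif_pos hx
    rw [this]
    exact hx.choose_spec
  have hroot : ∀ P : Submodule.torsionBy ℤ V.Point n, (P : V.Point) ≠ 0 →
      xc (P : V.Point) ∈ f.roots.toFinset := by
    intro P hP
    rw [Multiset.mem_toFinset, mem_roots hf]
    refine h P hP ?_
    have := P.2
    rw [Submodule.mem_torsionBy_iff] at this
    exact_mod_cast this
  let g : Submodule.torsionBy ℤ V.Point n → Option (f.roots.toFinset × Bool) := fun P =>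
    if hP : (P : V.Point) = 0 then none
    else some (⟨xc (P : V.Point), hroot P hP⟩, decide ((P : V.Point) = rep (xc (P : V.Point))))
  have hg : Function.Injective g := by
    intro P Q hPQ
    by_cases hP : (P : V.Point) = 0
    · by_cases hQ : (Q : V.Point) = 0
      · exact Subtype.ext (hP.trans hQ.symm)
      · simp only [g, hP, hQ, dite_true, dite_false] at hPQ
        cases hPQ
    · by_cases hQ : (Q : V.Point) = 0
      · simp only [g, hP, hQ, dite_true, dite_false] at hPQ
        cases hPQ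
      · simp only [g, hP, hQ, dite_false, Option.some.injEq, Prod.mk.injEq, Subtype.mk.injEq,
          decide_eq_decide] at hPQ
        obtain ⟨h1, h2⟩ := hPQ
        apply Subtype.ext
        rw [← h1] at h2
        obtain ⟨h3, h4⟩ := hrep P hP
        by_cases h5 : (P : V.Point) = rep (xc (P : V.Point))
        · rw [h5, h2.mp h5]
        · have h6 : (Q : V.Point) ≠ rep (xc (P : V.Point)) := fun h => h5 (h2.mpr h)
          have h7 := ((xc_eq_iff hP h3).mp h4.symm).resolve_left h5
          have h8 := ((xc_eq_iff hQ h3).mp (h1.symm.trans h4.symm)).resolve_left h6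
          rw [h7, h8]
  have hfin : Finite (Submodule.torsionBy ℤ V.Point n) := Finite.of_injective g hg
  refine ⟨hfin, ?_⟩
  have h1 := Nat.card_le_card_of_injective g hg
  refine h1.trans ?_
  have h2 : Nat.card (Option (f.roots.toFinset × Bool)) = 2 * f.roots.toFinset.card + 1 := by
    rw [Nat.card_eq_fintype_card, Fintype.card_option, Fintype.card_prod, Fintype.card_bool,
      Fintype.card_coe]
    ring
  rw [h2]
  have h3 : f.roots.toFinset.card ≤ f.natDegree :=
    (Multiset.toFinset_card_le _).trans (card_roots' f)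
  omega

lemma line_of_card {p : ℕ} [hp : Fact p.Prime] {M : Type*} [AddCommGroup M] [Module (ZMod p) M]
    (hfin : Finite M) (hcard : Nat.card M < p ^ 3) (N : Submodule (ZMod p) M)
    (hbot : N ≠ ⊥) (htop : N ≠ ⊤) :
    ∃ v ∈ N, v ≠ 0 ∧ ∀ w ∈ N, ∃ c : ZMod p, w = c • v := by
  have : Fintype M := Fintype.ofFinite M
  have hfd : FiniteDimensional (ZMod p) M := Module.Finite.of_finite
  have hc : Nat.card M = p ^ Module.finrank (ZMod p) M := by
    have := Module.card_eq_pow_finrank (K := ZMod p) (V := M)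
    rw [Nat.card_eq_fintype_card, this, ZMod.card]
  have h2 : Module.finrank (ZMod p) M < 3 := by
    rw [hc] at hcard
    exact (Nat.pow_lt_pow_iff_right hp.out.one_lt).mp hcard
  have h3 : Module.finrank (ZMod p) N < Module.finrank (ZMod p) M := Submodule.finrank_lt htop
  have h4 : 0 < Module.finrank (ZMod p) N := by
    rw [Nat.pos_iff_ne_zero]
    intro h
    exact hbot (Submodule.finrank_eq_zero.mp h)
  have h5 : Module.finrank (ZMod p) N = 1 := by omega
  obtain ⟨v, hv, hall⟩ := finrank_eq_one_iff'.mp h5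
  refine ⟨v, v.2, fun h => hv (Subtype.ext h), fun w hw => ?_⟩
  obtain ⟨c, hc⟩ := hall ⟨w, hw⟩
  exact ⟨c, by
    have := congrArg Subtype.val hc
    exact this.symm⟩

/-- Existence of points with a given abscissa. -/
lemma exists_point [IsAlgClosed K] (hΔ : V.Δ ≠ 0) (x : K) :
    ∃ P : V.Point, P ≠ 0 ∧ xc P = x := by
  obtain ⟨y, hy⟩ : ∃ y : K, V.Equation x y := by
    have hdeg : (X ^ 2 + C (V.a₁ * x + V.a₃) * X -
        C (x ^ 3 + V.a₂ * x ^ 2 + V.a₄ * x + V.a₆) : K[X]).degree ≠ 0 := by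
      have : (X ^ 2 + C (V.a₁ * x + V.a₃) * X -
        C (x ^ 3 + V.a₂ * x ^ 2 + V.a₄ * x + V.a₆) : K[X]).degree = 2 := by compute_degree!
      rw [this]; norm_num
    obtain ⟨y, hy⟩ := IsAlgClosed.exists_root _ hdeg
    refine ⟨y, ?_⟩
    rw [Affine.equation_iff]
    simp only [IsRoot.def, eval_sub, eval_add, eval_mul, eval_pow, eval_X, eval_C] at hy
    linear_combination hy
  exact ⟨.some x y ((equation_iff_nonsingular_of_Δ_ne_zero hΔ).mp hy), Point.some_ne_zero _, rfl⟩

lemma exists_three_torsion [IsAlgClosed K] (hΔ : V.Δ ≠ 0) (h3 : (3 : K) ≠ 0) :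
    ∃ P : V.Point, P ≠ 0 ∧ (3 : ℕ) • P = 0 := by
  have hdeg : (poly3 V).degree ≠ 0 := by
    intro h
    have := natDegree_eq_zero_iff_degree_le_zero.mpr h.le
    rw [natDegree_poly3 h3] at this
    norm_num at this
  obtain ⟨x, hx⟩ := IsAlgClosed.exists_root _ hdeg
  obtain ⟨P, hP, hPx⟩ := exists_point hΔ x
  refine ⟨P, hP, three_of_psi3 hΔ hP ?_⟩
  rw [hPx, ← eval_poly3]; exact hx

lemma exists_five_torsion [IsAlgClosed K] (hΔ : V.Δ ≠ 0) (h5 : (5 : K) ≠ 0) :
    ∃ P : V.Point, P ≠ 0 ∧ (5 : ℕ) • P = 0 := by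
  have hdeg : (poly5 V).degree ≠ 0 := by
    intro h
    have := natDegree_eq_zero_iff_degree_le_zero.mpr h.le
    rw [natDegree_poly5 h5] at this
    norm_num at this
  obtain ⟨x, hx⟩ := IsAlgClosed.exists_root _ hdeg
  obtain ⟨P, hP, hPx⟩ := exists_point hΔ x
  refine ⟨P, hP, five_of_psi5 hΔ hP ?_⟩
  rw [hPx, ← eval_poly5]; exact hx

lemma card_three_torsion (h3 : (3 : K) ≠ 0) :
    Finite (Submodule.torsionBy ℤ V.Point (3 : ℕ)) ∧
      Nat.card (Submodule.torsionBy ℤ V.Point (3 : ℕ)) ≤ 9 := by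
  have hne : poly3 V ≠ 0 := by
    intro h
    have := natDegree_poly3 (V := V) h3
    rw [h] at this; simp at this
  have := card_torsion_le (V := V) (n := 3) hne (fun P hP h => by
    rw [eval_poly3]; exact psi3_of_three hP h)
  rw [natDegree_poly3 h3] at this
  exact this

lemma card_five_torsion (h5 : (5 : K) ≠ 0) :
    Finite (Submodule.torsionBy ℤ V.Point (5 : ℕ)) ∧
      Nat.card (Submodule.torsionBy ℤ V.Point (5 : ℕ)) ≤ 25 := by
  have hne : poly5 V ≠ 0 := by
    intro h
    have := natDegree_poly5 (V := V) h5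
    rw [h] at this; simp at this
  have := card_torsion_le (V := V) (n := 5) hne (fun P hP h => by
    rw [eval_poly5]; exact (psi5_of_five hP h).1)
  rw [natDegree_poly5 h5] at this
  exact this

end Fermat.Agent.H51
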