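import Fermat.Agent.H51.RationalPoints

set_option autoImplicit false

namespace Fermat.Agent.H51

/-- The key polynomial identity: the level-15 modular units satisfy the equation of `X₀(15)`. -/
lemma level_fifteen_identity {s p A x : ℚ}
    (e2 : A^2 - 2*p*A + 2*A*s^2 + 5*p^2 + 5*p*s^2 - s^4 = 0)
    (e3 : 3*x^4 + 6*A*x^2 + 3*(s^3 - 6*p*s - 2*A*s)*x - A^2 = 0) :
    (s^2 - 4*p)^5 * ((s^2 - 4*p) + 9*(x^2 - s*x + p)) * (A + 3*x^2)^2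
      - 45*(x^2 - s*x + p)^3*(3*A + x^2)*(A + 3*x^2)*(s^2 - 4*p)^3
      - 81*(x^2 - s*x + p)^5*(3*A + x^2)^2*((x^2 - s*x + p) - (s^2 - 4*p)) = 0 := by
  linear_combination
    (-411*s^12 + 378*s^11*x + 6327*s^10*p + 2916*s^10*A - 378*s^10*x^2 - 4968*s^9*p*x -
      2346*s^9*A*x + 414*s^9*x^3 - 30654*s^8*p^2 - 30672*s^8*p*A + 3834*s^8*p*x^2 -
      6804*s^8*A^2 + 1764*s^8*A*x^2 - 405*s^8*x^4 + 20466*s^7*p^2*x + 21132*s^7*p*A*x -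
      3888*s^7*p*x^3 + 4065*s^7*A^2*x - 1314*s^7*A*x^3 + 405*s^7*x^5 + 38163*s^6*p^3 +
      73980*s^6*p^2*A - 7506*s^6*p^2*x^2 + 41364*s^6*p*A^2 - 11520*s^6*p*A*x^2 + 3078*s^6*p*x^4
      + 3352*s^6*A^3 - 1713*s^6*A^2*x^2 + 858*s^6*A*x^4 - 369*s^6*x^6 - 31968*s^5*p^3*x -
      43110*s^5*p^2*A*x + 7506*s^5*p^2*x^3 - 20511*s^5*p*A^2*x + 6534*s^5*p*A*x^3 -
      2079*s^5*p*x^5 - 90*s^5*A^3*x + 378*s^5*A^2*x^3 - 594*s^5*A*x^5 + 270*s^5*x^7 +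
      45378*s^4*p^4 + 22680*s^4*p^3*A - 7398*s^4*p^3*x^2 - 17496*s^4*p^2*A^2 +
      7452*s^4*p^2*A*x^2 - 6183*s^4*p^2*x^4 - 2496*s^4*p*A^3 + 5436*s^4*p*A^2*x^2 -
      2952*s^4*p*A*x^4 + 1404*s^4*p*x^6 + 4602*s^4*A^4 - 1278*s^4*A^3*x^2 + 306*s^4*A^2*x^4 +
      54*s^4*A*x^6 - 297*s^4*x^8 + 27810*s^3*p^4*x + 5964*s^3*p^3*A*x + 7308*s^3*p^3*x^3 +
      5985*s^3*p^2*A^2*x + 3078*s^3*p^2*A*x^3 + 837*s^3*p^2*x^5 - 4950*s^3*p*A^3*x +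
      738*s^3*p*A^2*x^3 + 3402*s^3*p*A*x^5 + 162*s^3*p*x^7 - 2781*s^3*A^4*x + 1116*s^3*A^3*x^3
      - 387*s^3*A^2*x^5 + 918*s^3*A*x^7 + 432*s^3*x^9 - 26505*s^2*p^5 + 45900*s^2*p^4*A -
      21330*s^2*p^4*x^2 - 6480*s^2*p^3*A^2 - 360*s^2*p^3*A*x^2 + 10530*s^2*p^3*x^4 +
      20424*s^2*p^2*A^3 - 9936*s^2*p^2*A^2*x^2 - 7200*s^2*p^2*A*x^4 - 432*s^2*p^2*x^6 -
      5712*s^2*p*A^4 + 2304*s^2*p*A^3*x^2 - 1368*s^2*p*A^2*x^4 - 6264*s^2*p*A*x^6 -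
      1593*s^2*p*x^8 - 180*s^2*A^5 + 336*s^2*A^4*x^2 - 252*s^2*A^3*x^4 + 36*s^2*A^2*x^6 -
      1188*s^2*A*x^8 - 378*s^2*x^10 + 62640*s*p^5*x - 27810*s*p^4*A*x - 6750*s*p^4*x^3 +
      20910*s*p^3*A^2*x - 900*s*p^3*A*x^3 - 9450*s*p^3*x^5 - 7110*s*p^2*A^3*x +
      5040*s*p^2*A^2*x^3 + 9990*s*p^2*A*x^5 + 2160*s*p^2*x^7 + 2958*s*p*A^4*x -
      1188*s*p*A^3*x^3 + 1098*s*p*A^2*x^5 + 4536*s*p*A*x^7 + 1188*s*p*x^9 - 774*s*A^5*x +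
      288*s*A^4*x^3 - 90*s*A^3*x^5 + 108*s*A^2*x^7 + 594*s*A*x^9 + 162*s*x^11 - 12615*p^6 +
      45576*p^5*A - 19710*p^5*x^2 - 13500*p^4*A^2 + 5580*p^4*A*x^2 + 7155*p^4*x^4 +
      11120*p^3*A^3 - 6000*p^3*A^2*x^2 - 2640*p^3*A*x^4 + 1260*p^3*x^6 - 2940*p^2*A^4 +
      1260*p^2*A^3*x^2 - 1260*p^2*A^2*x^4 - 3780*p^2*A*x^6 - 945*p^2*x^8 + 1800*p*A^5 -
      840*p*A^4*x^2 + 360*p*A^3*x^4 - 360*p*A^2*x^6 - 1080*p*A*x^8 - 270*p*x^10 - 388*A^6 +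
      180*A^5*x^2 - 84*A^4*x^4 + 36*A^3*x^6 - 36*A^2*x^8 - 108*A*x^10 - 27*x^12) * e3 +
    (-1233*s^11*x + 1134*s^10*x^2 + 20214*s^9*p*x + 8748*s^9*A*x - 1134*s^9*x^3 -
      16038*s^8*p*x^2 + 410*s^8*A^2 - 9510*s^8*A*x^2 - 110943*s^7*p^2*x - 95832*s^7*p*A*x +
      12636*s^7*p*x^3 - 22014*s^7*A^2*x + 7614*s^7*A*x^3 + 76302*s^6*p^2*x^2 - 4262*s^6*p*A^2 +
      91590*s^6*p*A*x^2 - 2096*s^6*A^3 + 26250*s^6*A^2*x^2 + 212616*s^5*p^3*x +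
      260226*s^5*p^2*A*x - 34020*s^5*p^2*x^3 + 136368*s^5*p*A^2*x - 54594*s^5*p*A*x^3 +
      17946*s^5*A^3*x - 16254*s^5*A^2*x^3 - 162972*s^4*p^3*x^2 + 11334*s^4*p^2*A^2 -
      221706*s^4*p^2*A*x^2 + 10848*s^4*p*A^3 - 131364*s^4*p*A^2*x^2 + 3022*s^4*A^4 -
      24258*s^4*A^3*x^2 - 42435*s^3*p^4*x - 23490*s^3*p^3*A*x + 5994*s^3*p^3*x^3 -
      87408*s^3*p^2*A^2*x + 76626*s^3*p^2*A*x^3 - 26478*s^3*p*A^3*x + 54702*s^3*p*A^2*x^3 +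
      3507*s^3*A^4*x + 7254*s^3*A^3*x^3 + 225504*s^2*p^4*x^2 - 2828*s^2*p^3*A^2 +
      85020*s^2*p^3*A*x^2 + 972*s^2*p^2*A^3 + 15444*s^2*p^2*A^2*x^2 - 4628*s^2*p*A^4 +
      24612*s^2*p*A^3*x^2 + 596*s^2*A^5 - 8244*s^2*A^4*x^2 - 45414*s*p^5*x + 130770*s*p^4*A*x -
      70956*s*p^4*x^3 + 80460*s*p^3*A^2*x - 110808*s*p^3*A*x^3 + 24300*s*p^2*A^3*x -
      7344*s*p^2*A^2*x^3 + 570*s*p*A^4*x - 8712*s*p*A^3*x^3 - 3102*s*A^5*x + 6012*s*A^4*x^3 -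
      2548*p^4*A^2 + 14268*p^4*A*x^2 + 8096*p^3*A^3 - 53376*p^3*A^2*x^2 + 1048*p^2*A^4 -
      6888*p^2*A^3*x^2 + 1024*p*A^5 - 6624*p*A^4*x^2 - 388*A^6 + 2508*A^5*x^2) * e2

end Fermat.Agent.H51
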