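import Mathlib

set_option autoImplicit false

namespace Fermat.Agent.H51

/-- The product of two integers being a square, with one positive: common squarefree part. -/
lemma exists_squarefree_of_mul_eq_sq {U V Z : ℤ} (hU : 0 < U) (h : U * V = Z ^ 2) :
    ∃ k z y : ℤ, 0 < k ∧ Squarefree k ∧ U = k * z ^ 2 ∧ V = k * y ^ 2 := by
  obtain ⟨n, rfl⟩ : ∃ n : ℕ, U = n := ⟨U.toNat, by omega⟩
  have hn : 0 < n := by exact_mod_cast hU
  obtain ⟨a, b, ha, hb, hab, hsq⟩ := Nat.sq_mul_squarefree_of_pos hn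
  have hb0 : (b : ℤ) ≠ 0 := by exact_mod_cast hb.ne'
  have ha0 : (a : ℤ) ≠ 0 := by exact_mod_cast ha.ne'
  have hsq' : Squarefree (a : ℤ) := Int.squarefree_natCast.mpr hsq
  have e1 : ((n : ℕ) : ℤ) = (a : ℤ) * (b : ℤ) ^ 2 := by
    rw [← hab]; push_cast; ring
  -- b ∣ Z
  have hbZ : (b : ℤ) ∣ Z := by
    have : (b : ℤ) ^ 2 ∣ Z ^ 2 := ⟨a * V, by rw [← h, e1]; ring⟩
    exact (Int.pow_dvd_pow_iff (by norm_num)).mp this
  obtain ⟨Z1, rfl⟩ := hbZ
  have e2 : (a : ℤ) * V = Z1 ^ 2 := by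
    have : (b : ℤ) ^ 2 * ((a : ℤ) * V) = (b : ℤ) ^ 2 * Z1 ^ 2 := by
      rw [e1] at h; linear_combination h
    exact mul_left_cancel₀ (pow_ne_zero 2 hb0) this
  have haZ : (a : ℤ) ∣ Z1 := by
    have h1 : (a : ℤ) ∣ Z1 ^ 2 := ⟨V, e2.symm⟩
    exact (hsq'.dvd_pow_iff_dvd (by norm_num)).mp h1
  obtain ⟨y, rfl⟩ := haZ
  refine ⟨a, b, y, by exact_mod_cast ha, hsq', e1, ?_⟩
  have : (a : ℤ) * V = (a : ℤ) * (a * y ^ 2) := by rw [e2]; ring
  exact mul_left_cancel₀ ha0 this

/-- squarefree positive divisors of 15 -/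
lemma dvd_fifteen {k : ℤ} (hk : 0 < k) (h : k ∣ 15) : k = 1 ∨ k = 3 ∨ k = 5 ∨ k = 15 := by
  have hle : k ≤ 15 := Int.le_of_dvd (by norm_num) h
  interval_cases k <;> simp_all

lemma sq_emod_eight_of_odd {a : ℤ} (h : a % 2 = 1) : a ^ 2 % 8 = 1 := by
  have : a % 8 = 1 ∨ a % 8 = 3 ∨ a % 8 = 5 ∨ a % 8 = 7 := by omega
  rcases this with h | h | h | h <;> simp [pow_two, Int.mul_emod, h]

/-- If `k ∣ m * a²`, `k ∣ m * d²`, with `a, d` coprime then `k ∣ m`. -/
lemma dvd_of_dvd_mul_sq {k m a d : ℤ} (h : IsCoprime a d) (h1 : k ∣ m * a ^ 2)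
    (h2 : k ∣ m * d ^ 2) : k ∣ m := by
  obtain ⟨u, v, huv⟩ := (h.pow (m := 2) (n := 2))
  have : m = u * (m * a ^ 2) + v * (m * d ^ 2) := by linear_combination (-m) * huv
  rw [this]
  exact dvd_add (Dvd.dvd.mul_left h1 u) (Dvd.dvd.mul_left h2 v)

/-- four number lemma -/
lemma four_numbers {p q r s : ℤ} (hp : p ≠ 0) (h : p * q = r * s) :
    ∃ a b c d : ℤ, p = a * b ∧ q = c * d ∧ r = a * c ∧ s = b * d ∧ IsCoprime b c := by
  obtain ⟨a, b, c, hbc, hpa, hra⟩ : ∃ a b c : ℤ, IsCoprime b c ∧ p = a * b ∧ r = a * c := by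
    have hg : (Int.gcd p r : ℤ) ≠ 0 := by
      intro h0
      have := Int.gcd_eq_zero_iff.mp (by exact_mod_cast h0)
      exact hp this.1
    refine ⟨Int.gcd p r, p / Int.gcd p r, r / Int.gcd p r, ?_, ?_, ?_⟩
    · exact Int.isCoprime_iff_gcd_eq_one.mpr (Int.gcd_ediv_gcd_ediv_gcd (by
        have : Int.gcd p r ≠ 0 := by exact_mod_cast hg
        omega))
    · exact (Int.mul_ediv_cancel' (Int.gcd_dvd_left ..)).symm
    · exact (Int.mul_ediv_cancel' (Int.gcd_dvd_right ..)).symm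
  have ha0 : a ≠ 0 := by rintro rfl; simp at hpa; exact hp hpa
  have hb0 : b ≠ 0 := by rintro rfl; simp at hpa; exact hp hpa
  have e : b * q = c * s := by
    have : a * (b * q) = a * (c * s) := by rw [hpa, hra] at h; linear_combination h
    exact mul_left_cancel₀ ha0 this
  have hbs : b ∣ s := by
    have : b ∣ c * s := ⟨q, e.symm⟩
    exact hbc.dvd_of_dvd_mul_left this
  obtain ⟨d, rfl⟩ := hbs
  refine ⟨a, b, c, d, hpa, ?_, hra, rfl, hbc⟩
  have : b * q = b * (c * d) := by rw [e]; ring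
  exact mul_left_cancel₀ hb0 this

/-- Pythagorean parametrisation, with `x` odd. -/
lemma pyth_param {x y z : ℤ} (h : x ^ 2 + y ^ 2 = z ^ 2) (hc : IsCoprime x y) (hx : x % 2 = 1) :
    ∃ m n : ℤ, x = m ^ 2 - n ^ 2 ∧ y = 2 * m * n ∧ IsCoprime m n := by
  have hz : z ≠ 0 := by
    rintro rfl
    have h1 : x ^ 2 = 0 := by nlinarith [sq_nonneg x, sq_nonneg y]
    have h2 : x = 0 := by simpa using h1
    omega
  have h3 : PythagoreanTriple x y |z| := by
    unfold PythagoreanTriple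
    have : |z| * |z| = z ^ 2 := by rw [← sq, sq_abs]
    rw [this]; linear_combination h
  obtain ⟨m, n, h1, h2, _, h4, _⟩ := PythagoreanTriple.coprime_classification' h3
    (Int.isCoprime_iff_gcd_eq_one.mp hc) hx (abs_pos.mpr hz)
  exact ⟨m, n, h1, h2, Int.isCoprime_iff_gcd_eq_one.mpr h4⟩

/-- The descent step, coprime case with `x` odd. -/
lemma descent_step {x y z w : ℤ} (hy : y ≠ 0) (hc : IsCoprime x y)
    (hxo : x % 2 = 1) (h1 : x ^ 2 + y ^ 2 = z ^ 2) (h2 : x ^ 2 + 16 * y ^ 2 = w ^ 2) :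
    ∃ x' y' z' w' : ℤ, x' ≠ 0 ∧ y' ≠ 0 ∧ x' ^ 2 + y' ^ 2 = z' ^ 2 ∧
      x' ^ 2 + 16 * y' ^ 2 = w' ^ 2 ∧ (x' * y') ^ 2 < y ^ 2 := by
  obtain ⟨p, q, hx1, hy1, hpq⟩ := pyth_param h1 hc hxo
  have hc4 : IsCoprime x (4 * y) := by
    refine IsCoprime.mul_right ?_ hc
    have : IsCoprime x 2 := by
      refine ⟨1, -(x / 2), ?_⟩
      omega
    have h22 := this.mul_right this
    norm_num at h22
    exact h22
  have h2' : x ^ 2 + (4 * y) ^ 2 = w ^ 2 := by linear_combination h2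
  obtain ⟨r, s, hx2, hy2, hrs⟩ := pyth_param h2' hc4 hxo
  have hrs4 : r * s = 4 * (p * q) := by
    have : 2 * (r * s) = 2 * (4 * (p * q)) := by linear_combination (-1) * hy2 + 4 * hy1
    linarith
  have hp0 : p ≠ 0 := by rintro rfl; simp at hy1; exact hy hy1
  have hq0 : q ≠ 0 := by rintro rfl; simp at hy1; exact hy hy1
  have hpar : r % 2 = 0 ∧ s % 2 = 1 ∨ r % 2 = 1 ∧ s % 2 = 0 := by
    have hx3 : (r - s) * (r + s) % 2 = 1 := by
      have : (r - s) * (r + s) = x := by rw [hx2]; ring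
      rw [this]; exact hxo
    rcases Int.emod_two_eq_zero_or_one r with hr | hr <;>
    rcases Int.emod_two_eq_zero_or_one s with hs | hs
    · exfalso
      have h5 : (r - s) % 2 = 0 := by omega
      rw [Int.mul_emod, h5] at hx3; simp at hx3
    · exact Or.inl ⟨hr, hs⟩
    · exact Or.inr ⟨hr, hs⟩
    · exfalso
      have h5 : (r - s) % 2 = 0 := by omega
      rw [Int.mul_emod, h5] at hx3; simp at hx3
  rcases hpar with ⟨hr, hs⟩ | ⟨hr, hs⟩
  · -- r even, s odd
    obtain ⟨r', rfl⟩ : ∃ r', r = 4 * r' := by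
      have hs2 : IsCoprime (4 : ℤ) s := by
        have : IsCoprime 2 s := ⟨-(s / 2), 1, by omega⟩
        have h22 := this.mul_left this
        norm_num at h22
        exact h22
      have : (4 : ℤ) ∣ r * s := ⟨p * q, hrs4⟩
      obtain ⟨r', hr'⟩ := hs2.dvd_of_dvd_mul_right this
      exact ⟨r', hr'⟩
    have h5 : p * q = r' * s := by linarith
    obtain ⟨a, b, c, d, e1, e2, e3, e4, e5⟩ := four_numbers hp0 h5
    subst e1 e2 e3 e4
    -- b²(a²+d²) = c²(16a²+d²)
    have e6 : b ^ 2 * (a ^ 2 + d ^ 2) = c ^ 2 * (16 * a ^ 2 + d ^ 2) := by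
      have : (a * b) ^ 2 - (c * d) ^ 2 = (4 * (a * c)) ^ 2 - (b * d) ^ 2 := by
        rw [← hx1, ← hx2]
      linear_combination this
    have hb0 : b ≠ 0 := by rintro rfl; simp at hp0
    have ha0 : a ≠ 0 := by rintro rfl; simp at hp0
    have hc0 : c ≠ 0 := by rintro rfl; simp at hq0
    have hd0 : d ≠ 0 := by rintro rfl; simp at hq0
    have hcd : c ^ 2 ∣ a ^ 2 + d ^ 2 := by
      have : c ^ 2 ∣ b ^ 2 * (a ^ 2 + d ^ 2) := ⟨_, e6⟩
      exact (e5.symm.pow).dvd_of_dvd_mul_left this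
    obtain ⟨k, hk⟩ := hcd
    have hk2 : 16 * a ^ 2 + d ^ 2 = b ^ 2 * k := by
      have : c ^ 2 * (16 * a ^ 2 + d ^ 2) = c ^ 2 * (b ^ 2 * k) := by
        rw [← e6, hk]; ring
      exact mul_left_cancel₀ (pow_ne_zero 2 hc0) this
    have had : IsCoprime a d := by
      have := hpq.of_mul_left_left
      exact this.of_mul_right_right
    have hk15 : k ∣ 15 := by
      refine dvd_of_dvd_mul_sq had ?_ ?_
      · exact ⟨b ^ 2 - c ^ 2, by linear_combination hk2 - hk⟩
      · exact ⟨16 * c ^ 2 - b ^ 2, by linear_combination 16 * hk - hk2⟩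
    have hkpos : 0 < k := by
      have h7 : 0 < a ^ 2 + d ^ 2 := by positivity
      rw [hk] at h7
      exact pos_of_mul_pos_right h7 (sq_nonneg c)
    have hb2 : b % 2 = 1 := by
      rcases Int.emod_two_eq_zero_or_one b with h | h
      · rw [Int.mul_emod, h] at hs; simp at hs
      · exact h
    have hd2 : d % 2 = 1 := by
      rcases Int.emod_two_eq_zero_or_one d with h | h
      · rw [Int.mul_emod, h] at hs; simp at hs
      · exact h
    have hb8 := sq_emod_eight_of_odd hb2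
    have hd8 := sq_emod_eight_of_odd hd2
    have hk1 : k = 1 := by
      have h8 : b ^ 2 * k % 8 = 1 := by rw [← hk2]; omega
      rw [Int.mul_emod, hb8] at h8
      rcases dvd_fifteen hkpos hk15 with h | h | h | h
      · exact h
      all_goals (subst h; norm_num at h8)
    subst hk1
    refine ⟨d, a, c, b, hd0, ha0, by linear_combination hk, by linear_combination hk2, ?_⟩
    have hyy : y ^ 2 = 4 * (b * c) ^ 2 * (d * a) ^ 2 := by rw [hy1]; ring
    rw [hyy]
    have hbc : 1 ≤ (b * c) ^ 2 := by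
      have := sq_nonneg (b * c)
      have h9 : (b * c) ^ 2 ≠ 0 := pow_ne_zero 2 (mul_ne_zero hb0 hc0)
      omega
    have hda : 1 ≤ (d * a) ^ 2 := by
      have := sq_nonneg (d * a)
      have h9 : (d * a) ^ 2 ≠ 0 := pow_ne_zero 2 (mul_ne_zero hd0 ha0)
      omega
    nlinarith
  · -- s even, r odd
    obtain ⟨s', rfl⟩ : ∃ s', s = 4 * s' := by
      have hs2 : IsCoprime (4 : ℤ) r := by
        have : IsCoprime 2 r := ⟨-(r / 2), 1, by omega⟩
        have h22 := this.mul_left this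
        norm_num at h22
        exact h22
      have : (4 : ℤ) ∣ r * s := ⟨p * q, hrs4⟩
      obtain ⟨r', hr'⟩ := hs2.dvd_of_dvd_mul_left this
      exact ⟨r', hr'⟩
    have h5 : p * q = r * s' := by linarith
    obtain ⟨a, b, c, d, e1, e2, e3, e4, e5⟩ := four_numbers hp0 h5
    subst e1 e2 e3 e4
    have e6 : a ^ 2 * (b ^ 2 - c ^ 2) = d ^ 2 * (c ^ 2 - 16 * b ^ 2) := by
      have : (a * b) ^ 2 - (c * d) ^ 2 = (a * c) ^ 2 - (4 * (b * d)) ^ 2 := by
        rw [← hx1, ← hx2]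
      linear_combination this
    have hb0 : b ≠ 0 := by rintro rfl; simp at hp0
    have ha0 : a ≠ 0 := by rintro rfl; simp at hp0
    have hc0 : c ≠ 0 := by rintro rfl; simp at hq0
    have hd0 : d ≠ 0 := by rintro rfl; simp at hq0
    have had : IsCoprime a d := by
      have := hpq.of_mul_left_left
      exact this.of_mul_right_right
    have hcd : d ^ 2 ∣ b ^ 2 - c ^ 2 := by
      have : d ^ 2 ∣ a ^ 2 * (b ^ 2 - c ^ 2) := ⟨_, e6⟩
      exact (had.symm.pow).dvd_of_dvd_mul_left this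
    obtain ⟨k', hk'⟩ := hcd
    obtain ⟨k, rfl⟩ : ∃ k, k' = -k := ⟨-k', by ring⟩
    have hk : c ^ 2 - b ^ 2 = d ^ 2 * k := by linear_combination (-1) * hk'
    have hk2 : 16 * b ^ 2 - c ^ 2 = a ^ 2 * k := by
      have : d ^ 2 * (16 * b ^ 2 - c ^ 2) = d ^ 2 * (a ^ 2 * k) := by
        linear_combination e6 - (a^2) * hk'
      exact mul_left_cancel₀ (pow_ne_zero 2 hd0) this
    have hbc : IsCoprime b c := e5
    have hk15 : k ∣ 15 := by
      refine dvd_of_dvd_mul_sq hbc ?_ ?_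
      · exact ⟨a ^ 2 + d ^ 2, by linear_combination hk2 + hk⟩
      · exact ⟨a ^ 2 + 16 * d ^ 2, by linear_combination 16 * hk + hk2⟩
    have hkpos : 0 < k := by
      have h7 : 0 < 15 * b ^ 2 := by positivity
      have h8 : 15 * b ^ 2 = (a ^ 2 + d ^ 2) * k := by linear_combination hk2 + hk
      rw [h8] at h7
      exact pos_of_mul_pos_right h7 (by positivity)
    have ha2 : a % 2 = 1 := by
      rcases Int.emod_two_eq_zero_or_one a with h | h
      · rw [Int.mul_emod, h] at hr; simp at hr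
      · exact h
    have hc2 : c % 2 = 1 := by
      rcases Int.emod_two_eq_zero_or_one c with h | h
      · rw [Int.mul_emod, h] at hr; simp at hr
      · exact h
    have ha8 := sq_emod_eight_of_odd ha2
    have hc8 := sq_emod_eight_of_odd hc2
    have hk1 : k = 15 := by
      have h8 : a ^ 2 * k % 8 = 7 := by rw [← hk2]; omega
      rw [Int.mul_emod, ha8] at h8
      rcases dvd_fifteen hkpos hk15 with h | h | h | h
      pick_goal 4
      · exact h
      all_goals (subst h; norm_num at h8)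
    subst hk1
    refine ⟨a, d, b, c, ha0, hd0, by linarith, by linarith, ?_⟩
    have hyy : y ^ 2 = 4 * (b * c) ^ 2 * (a * d) ^ 2 := by rw [hy1]; ring
    rw [hyy]
    have hbc : 1 ≤ (b * c) ^ 2 := by
      have := sq_nonneg (b * c)
      have h9 : (b * c) ^ 2 ≠ 0 := pow_ne_zero 2 (mul_ne_zero hb0 hc0)
      omega
    have hda : 1 ≤ (a * d) ^ 2 := by
      have := sq_nonneg (a * d)
      have h9 : (a * d) ^ 2 ≠ 0 := pow_ne_zero 2 (mul_ne_zero ha0 hd0)
      omega
    nlinarith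

/-- Euler's concordant forms `x² + y²`, `x² + 16 y²`: only trivial solutions. -/
theorem concordant_one_sixteen (n : ℕ) : ∀ x y z w : ℤ, x ≠ 0 → y ≠ 0 →
    x ^ 2 + y ^ 2 = z ^ 2 → x ^ 2 + 16 * y ^ 2 = w ^ 2 → ((x * y) ^ 2).natAbs = n → False := by
  induction n using Nat.strong_induction_on with
  | _ n ih =>
    intro x y z w hx hy h1 h2 hn
    have hlt : ∀ x' y' z' w' : ℤ, x' ≠ 0 → y' ≠ 0 → x' ^ 2 + y' ^ 2 = z' ^ 2 →
        x' ^ 2 + 16 * y' ^ 2 = w' ^ 2 → (x' * y') ^ 2 < (x * y) ^ 2 → False := by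
      intro x' y' z' w' hx' hy' h1' h2' hlt
      refine ih ((x' * y') ^ 2).natAbs ?_ x' y' z' w' hx' hy' h1' h2' rfl
      rw [← hn]
      have := sq_nonneg (x' * y')
      omega
    by_cases hc : IsCoprime x y
    · rcases Int.emod_two_eq_zero_or_one x with hxe | hxo
      · -- x even
        obtain ⟨x1, rfl⟩ : ∃ x1, x = 2 * x1 := ⟨x / 2, by omega⟩
        obtain ⟨w1, rfl⟩ : ∃ w1, w = 2 * w1 := by
          have : w ^ 2 % 2 = 0 := by
            rw [← h2]
            have : (2 * x1) ^ 2 + 16 * y ^ 2 = 2 * (2 * x1 ^ 2 + 8 * y ^ 2) := by ring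
            omega
          rcases Int.emod_two_eq_zero_or_one w with h | h
          · exact ⟨w / 2, by omega⟩
          · rw [pow_two, Int.mul_emod, h] at this; norm_num at this
        have h3 : x1 ^ 2 + 4 * y ^ 2 = w1 ^ 2 := by linarith
        have hy2 : y % 2 = 1 := by
          rcases Int.emod_two_eq_zero_or_one y with h | h
          · exfalso
            obtain ⟨y1, rfl⟩ : ∃ y1, y = 2 * y1 := ⟨y / 2, by omega⟩
            obtain ⟨u, v, huv⟩ := hc
            have : 2 * (u * x1 + v * y1) = 1 := by linear_combination huv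
            omega
          · exact h
        have hy8 := sq_emod_eight_of_odd hy2
        have hx1 : x1 % 2 = 0 := by
          rcases Int.emod_two_eq_zero_or_one x1 with h | h
          · exact h
          · exfalso
            have h8 := sq_emod_eight_of_odd h
            have hw1 : w1 % 2 = 1 := by
              rcases Int.emod_two_eq_zero_or_one w1 with h' | h'
              · exfalso
                have : w1 ^ 2 % 2 = 0 := by rw [pow_two, Int.mul_emod, h']; rfl
                omega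
              · exact h'
            have := sq_emod_eight_of_odd hw1
            omega
        obtain ⟨x2, rfl⟩ : ∃ x2, x1 = 2 * x2 := ⟨x1 / 2, by omega⟩
        obtain ⟨w2, rfl⟩ : ∃ w2, w1 = 2 * w2 := by
          have : w1 ^ 2 % 2 = 0 := by
            rw [← h3]
            have : (2 * x2) ^ 2 + 4 * y ^ 2 = 2 * (2 * x2 ^ 2 + 2 * y ^ 2) := by ring
            omega
          rcases Int.emod_two_eq_zero_or_one w1 with h | h
          · exact ⟨w1 / 2, by omega⟩
          · rw [pow_two, Int.mul_emod, h] at this; norm_num at this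
        have hx20 : x2 ≠ 0 := by rintro rfl; simp at hx
        refine hlt y x2 w2 z hy hx20 (by linarith) (by linear_combination h1) ?_
        have h9 : 0 < (y * x2) ^ 2 := by positivity
        have h10 : (2 * (2 * x2) * y) ^ 2 = 16 * (y * x2) ^ 2 := by ring
        rw [h10]; linarith
      · obtain ⟨x', y', z', w', hx', hy', h1', h2', hl⟩ := descent_step hy hc hxo h1 h2
        refine hlt x' y' z' w' hx' hy' h1' h2' (lt_of_lt_of_le hl ?_)
        have h9 : 1 ≤ x ^ 2 := by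
          have := sq_nonneg x
          have h9 : x ^ 2 ≠ 0 := pow_ne_zero 2 hx
          omega
        have : (x * y) ^ 2 = x ^ 2 * y ^ 2 := by ring
        rw [this]
        nlinarith [sq_nonneg y]
    · -- not coprime
      have hg : Int.gcd x y ≠ 1 := fun h => hc (Int.isCoprime_iff_gcd_eq_one.mpr h)
      obtain ⟨q, hq, hqd⟩ := Nat.exists_prime_and_dvd hg
      have hqx : (q : ℤ) ∣ x := (Int.natCast_dvd_natCast.mpr hqd).trans (Int.gcd_dvd_left ..)
      have hqy : (q : ℤ) ∣ y := (Int.natCast_dvd_natCast.mpr hqd).trans (Int.gcd_dvd_right ..)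
      obtain ⟨x1, rfl⟩ := hqx
      obtain ⟨y1, rfl⟩ := hqy
      have hq0 : (q : ℤ) ≠ 0 := by exact_mod_cast hq.ne_zero
      have hqz : (q : ℤ) ∣ z := by
        have : (q : ℤ) ^ 2 ∣ z ^ 2 := ⟨x1 ^ 2 + y1 ^ 2, by rw [← h1]; ring⟩
        exact (Int.pow_dvd_pow_iff (by norm_num)).mp this
      have hqw : (q : ℤ) ∣ w := by
        have : (q : ℤ) ^ 2 ∣ w ^ 2 := ⟨x1 ^ 2 + 16 * y1 ^ 2, by rw [← h2]; ring⟩
        exact (Int.pow_dvd_pow_iff (by norm_num)).mp this
      obtain ⟨z1, rfl⟩ := hqz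
      obtain ⟨w1, rfl⟩ := hqw
      have hx1 : x1 ≠ 0 := by rintro rfl; simp at hx
      have hy1 : y1 ≠ 0 := by rintro rfl; simp at hy
      refine hlt x1 y1 z1 w1 hx1 hy1 ?_ ?_ ?_
      · have : (q : ℤ) ^ 2 * (x1 ^ 2 + y1 ^ 2) = (q : ℤ) ^ 2 * z1 ^ 2 := by linear_combination h1
        exact mul_left_cancel₀ (pow_ne_zero 2 hq0) this
      · have : (q : ℤ) ^ 2 * (x1 ^ 2 + 16 * y1 ^ 2) = (q : ℤ) ^ 2 * w1 ^ 2 := by
          linear_combination h2
        exact mul_left_cancel₀ (pow_ne_zero 2 hq0) this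
      · have h9 : 0 < (x1 * y1) ^ 2 := by positivity
        have h10 : ((q : ℤ) * x1 * (q * y1)) ^ 2 = (q : ℤ) ^ 4 * (x1 * y1) ^ 2 := by ring
        have h11 : (2 : ℤ) ^ 4 ≤ (q : ℤ) ^ 4 := by
          have : (2 : ℤ) ≤ q := by exact_mod_cast hq.two_le
          exact pow_le_pow_left₀ (by norm_num) this 4
        rw [h10]
        nlinarith

end Fermat.Agent.H51
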