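import Mathlib

set_option autoImplicit false

namespace Fermat.Agent.H51

open WeierstrassCurve WeierstrassCurve.Affine

variable {K : Type*} [Field K] [DecidableEq K] {V : WeierstrassCurve.Affine K}

/-- The abscissa of a point (junk value `0` at infinity). -/
def xc : V.Point → K
  | .zero => 0
  | .some x _ _ => x

/-- `4x³ + b₂x² + 2b₄x + b₆`. -/
def psi2Sq (V : WeierstrassCurve.Affine K) (x : K) : K :=
  4 * x ^ 3 + V.b₂ * x ^ 2 + 2 * V.b₄ * x + V.b₆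

/-- `3x⁴ + b₂x³ + 3b₄x² + 3b₆x + b₈`. -/
def psi3 (V : WeierstrassCurve.Affine K) (x : K) : K :=
  3 * x ^ 4 + V.b₂ * x ^ 3 + 3 * V.b₄ * x ^ 2 + 3 * V.b₆ * x + V.b₈

/-- (minus) the fifth division polynomial. -/
def psi5 (V : WeierstrassCurve.Affine K) (x : K) : K :=
  psi2Sq V x ^ 4 - psi3 V x * psi2Sq V x ^ 2 * (6 * x ^ 2 + V.b₂ * x + V.b₄) + psi3 V x ^ 3

lemma xc_some {x y : K} (h : V.Nonsingular x y) : xc (Point.some x y h) = x := rfl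

lemma xc_neg (P : V.Point) : xc (-P) = xc P := by
  rcases P with _ | ⟨x, y, h⟩ <;> rfl

lemma xc_eq_iff {P Q : V.Point} (hP : P ≠ 0) (hQ : Q ≠ 0) : xc P = xc Q ↔ P = Q ∨ P = -Q := by
  rcases P with _ | ⟨x, y, h⟩
  · exact absurd rfl hP
  rcases Q with _ | ⟨x', y', h'⟩
  · exact absurd rfl hQ
  rw [xc_some, xc_some]
  exact Point.X_eq_iff

lemma equation_sq {x y : K} (h : V.Equation x y) :
    (2 * y + V.a₁ * x + V.a₃) ^ 2 = psi2Sq V x := by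
  rw [Affine.equation_iff] at h
  unfold psi2Sq
  simp only [WeierstrassCurve.b₂, WeierstrassCurve.b₄, WeierstrassCurve.b₆]
  linear_combination 4 * h

lemma two_smul_eq_zero_iff {P : V.Point} (hP : P ≠ 0) : (2 : ℕ) • P = 0 ↔ psi2Sq V (xc P) = 0 := by
  rcases P with _ | ⟨x, y, h⟩
  · exact absurd rfl hP
  rw [xc_some, ← equation_sq h.1, two_nsmul, add_eq_zero_iff_eq_neg, Point.neg_some,
    Point.some.injEq, Affine.negY]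
  constructor
  · rintro ⟨-, h2⟩
    have : 2 * y + V.a₁ * x + V.a₃ = 0 := by linear_combination h2
    rw [this]; ring
  · intro h2
    have : 2 * y + V.a₁ * x + V.a₃ = 0 := by simpa using h2
    exact ⟨rfl, by linear_combination this⟩

/-- Doubling formula on abscissae. -/
lemma xc_two_smul {P : V.Point} (hP : P ≠ 0) (h2 : (2 : ℕ) • P ≠ 0) :
    xc ((2 : ℕ) • P) * psi2Sq V (xc P) =
      (xc P) ^ 4 - V.b₄ * (xc P) ^ 2 - 2 * V.b₆ * xc P - V.b₈ := by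
  have hne := (not_congr (two_smul_eq_zero_iff hP)).mp h2
  rcases P with _ | ⟨x, y, h⟩
  · exact absurd rfl hP
  rw [xc_some] at hne ⊢
  have hsq := equation_sq h.1
  have hy : y ≠ V.negY x y := by
    intro h3
    apply hne
    rw [← hsq]
    rw [Affine.negY] at h3
    have : 2 * y + V.a₁ * x + V.a₃ = 0 := by linear_combination h3
    rw [this]; ring
  have hy0 : 2 * y + V.a₁ * x + V.a₃ ≠ 0 := by
    intro h3
    apply hne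
    rw [← hsq, h3]; ring
  rw [two_nsmul, Point.add_self_of_Y_ne hy, xc_some, Affine.addX,
    Affine.slope_of_Y_ne rfl hy, ← hsq]
  have hd : y - V.negY x y = 2 * y + V.a₁ * x + V.a₃ := by rw [Affine.negY]; ring
  rw [hd]
  have heq := h.1
  rw [Affine.equation_iff] at heq
  have e : ((3 * x ^ 2 + 2 * V.a₂ * x + V.a₄ - V.a₁ * y) / (2 * y + V.a₁ * x + V.a₃)) *
      (2 * y + V.a₁ * x + V.a₃) = 3 * x ^ 2 + 2 * V.a₂ * x + V.a₄ - V.a₁ * y :=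
    div_mul_cancel₀ _ hy0
  generalize (3 * x ^ 2 + 2 * V.a₂ * x + V.a₄ - V.a₁ * y) / (2 * y + V.a₁ * x + V.a₃) = l at e
  simp only [WeierstrassCurve.b₄, WeierstrassCurve.b₆, WeierstrassCurve.b₈]
  linear_combination (l * (2 * y + V.a₁ * x + V.a₃) + 3 * x ^ 2 + 2 * V.a₂ * x + V.a₄ - V.a₁ * y
    + V.a₁ * (2 * y + V.a₁ * x + V.a₃)) * e - (V.a₁ ^ 2 + 4 * V.a₂ + 8 * x) * heq

/-- The sum formula on abscissae. -/
lemma xc_add_sub_sum {P Q : V.Point} (hP : P ≠ 0) (hQ : Q ≠ 0) (hx : xc P ≠ xc Q) :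
    (xc (P + Q) + xc (P - Q)) * (xc P - xc Q) ^ 2 =
      2 * xc P * xc Q * (xc P + xc Q) + V.b₂ * (xc P * xc Q) + V.b₄ * (xc P + xc Q) + V.b₆ := by
  rcases P with _ | ⟨x₁, y₁, h₁⟩
  · exact absurd rfl hP
  rcases Q with _ | ⟨x₂, y₂, h₂⟩
  · exact absurd rfl hQ
  simp only [xc_some] at hx ⊢
  have hd : x₁ - x₂ ≠ 0 := sub_ne_zero.mpr hx
  rw [sub_eq_add_neg, Point.neg_some, Point.add_of_X_ne hx, Point.add_of_X_ne hx, xc_some, xc_some,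
    Affine.addX, Affine.addX, Affine.slope_of_X_ne hx, Affine.slope_of_X_ne hx]
  have e1 := h₁.1
  have e2 := h₂.1
  rw [Affine.equation_iff] at e1 e2
  have l1 : (y₁ - y₂) / (x₁ - x₂) * (x₁ - x₂) = y₁ - y₂ := by field_simp
  have l2 : (y₁ - V.negY x₂ y₂) / (x₁ - x₂) * (x₁ - x₂) = y₁ + y₂ + V.a₁ * x₂ + V.a₃ := by
    rw [Affine.negY]; field_simp; ring
  generalize (y₁ - y₂) / (x₁ - x₂) = u at l1
  generalize (y₁ - V.negY x₂ y₂) / (x₁ - x₂) = v at l2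
  simp only [WeierstrassCurve.b₂, WeierstrassCurve.b₄, WeierstrassCurve.b₆]
  linear_combination (u * (x₁ - x₂) + (y₁ - y₂) + V.a₁ * (x₁ - x₂)) * l1 +
    (v * (x₁ - x₂) + (y₁ + y₂ + V.a₁ * x₂ + V.a₃) + V.a₁ * (x₁ - x₂)) * l2 +
    2 * e1 + 2 * e2

/-- The product formula on abscissae. -/
lemma xc_add_sub_prod {P Q : V.Point} (hP : P ≠ 0) (hQ : Q ≠ 0) (hx : xc P ≠ xc Q) :
    (xc (P + Q) * xc (P - Q)) * (xc P - xc Q) ^ 2 =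
      (xc P * xc Q) ^ 2 - V.b₄ * (xc P * xc Q) - V.b₆ * (xc P + xc Q) - V.b₈ := by
  rcases P with _ | ⟨x₁, y₁, h₁⟩
  · exact absurd rfl hP
  rcases Q with _ | ⟨x₂, y₂, h₂⟩
  · exact absurd rfl hQ
  simp only [xc_some] at hx ⊢
  have hd : x₁ - x₂ ≠ 0 := sub_ne_zero.mpr hx
  rw [sub_eq_add_neg, Point.neg_some, Point.add_of_X_ne hx, Point.add_of_X_ne hx, xc_some, xc_some,
    Affine.addX, Affine.addX, Affine.slope_of_X_ne hx, Affine.slope_of_X_ne hx]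
  have e1 := h₁.1
  have e2 := h₂.1
  rw [Affine.equation_iff] at e1 e2
  have l1 : (y₁ - y₂) / (x₁ - x₂) * (x₁ - x₂) = y₁ - y₂ := div_mul_cancel₀ _ hd
  have l2 : (y₁ - V.negY x₂ y₂) / (x₁ - x₂) * (x₁ - x₂) = y₁ + y₂ + V.a₁ * x₂ + V.a₃ := by
    rw [div_mul_cancel₀ _ hd, Affine.negY]; ring
  generalize (y₁ - y₂) / (x₁ - x₂) = u at l1
  generalize (y₁ - V.negY x₂ y₂) / (x₁ - x₂) = v at l2
  have n1 : (u ^ 2 + V.a₁ * u - V.a₂ - x₁ - x₂) * (x₁ - x₂) ^ 2 =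
      (y₁ - y₂) ^ 2 + V.a₁ * (y₁ - y₂) * (x₁ - x₂) - (V.a₂ + x₁ + x₂) * (x₁ - x₂) ^ 2 := by
    linear_combination (u * (x₁ - x₂) + (y₁ - y₂) + V.a₁ * (x₁ - x₂)) * l1
  have n2 : (v ^ 2 + V.a₁ * v - V.a₂ - x₁ - x₂) * (x₁ - x₂) ^ 2 =
      (y₁ + y₂ + V.a₁ * x₂ + V.a₃) ^ 2 + V.a₁ * (y₁ + y₂ + V.a₁ * x₂ + V.a₃) * (x₁ - x₂)
        - (V.a₂ + x₁ + x₂) * (x₁ - x₂) ^ 2 := by
    linear_combination (v * (x₁ - x₂) + (y₁ + y₂ + V.a₁ * x₂ + V.a₃) + V.a₁ * (x₁ - x₂)) * l2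
  have key : ((y₁ - y₂) ^ 2 + V.a₁ * (y₁ - y₂) * (x₁ - x₂) - (V.a₂ + x₁ + x₂) * (x₁ - x₂) ^ 2) *
      ((y₁ + y₂ + V.a₁ * x₂ + V.a₃) ^ 2 + V.a₁ * (y₁ + y₂ + V.a₁ * x₂ + V.a₃) * (x₁ - x₂)
        - (V.a₂ + x₁ + x₂) * (x₁ - x₂) ^ 2) =
      (x₁ - x₂) ^ 2 * ((x₁ * x₂) ^ 2 - V.b₄ * (x₁ * x₂) - V.b₆ * (x₁ + x₂) - V.b₈) := by
    simp only [WeierstrassCurve.b₄, WeierstrassCurve.b₆, WeierstrassCurve.b₈]
    linear_combination (-x₁^3 + 2*x₁^2*x₂ - x₁^2*V.a₂ + 2*x₁*x₂^2 + x₁*x₂*V.a₁^2 + 4*x₁*x₂*V.a₂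
      + x₁*y₁*V.a₁ + x₁*V.a₁*V.a₃ + x₁*V.a₄ - 2*x₂^3 - x₂^2*V.a₁^2 - 2*x₂^2*V.a₂ - 2*x₂*y₂*V.a₁
      - x₂*V.a₁*V.a₃ + y₁^2 + y₁*V.a₃ - 2*y₂^2 - 2*y₂*V.a₃ + V.a₆) * e1 +
      (-4*x₁^3 + 2*x₁^2*x₂ - x₁^2*V.a₁^2 - 4*x₁^2*V.a₂ + 2*x₁*x₂^2 + x₁*x₂*V.a₁^2 + 4*x₁*x₂*V.a₂
      - x₁*V.a₁*V.a₃ - 2*x₁*V.a₄ - x₂^3 - x₂^2*V.a₂ + x₂*y₂*V.a₁ + x₂*V.a₁*V.a₃ + x₂*V.a₄ + y₂^2
      + y₂*V.a₃ - V.a₆) * e2
  rw [← n1, ← n2] at key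
  have hd2 : (x₁ - x₂) ^ 2 ≠ 0 := pow_ne_zero 2 hd
  apply mul_left_cancel₀ hd2
  linear_combination key

end Fermat.Agent.H51
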