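import Fermat.Agent.H51.X0Fifteen

set_option autoImplicit false

namespace Fermat.Agent.H51

/-- Integer version with `3 ∤ g1`, from the cross-multiplied equation. -/
lemma cross_descent {g1 g2 a b : ℤ} (hg1 : g1 ≠ 0) (hg2 : g2 ≠ 0) (ha : a ≠ 0) (hb : b ≠ 0)
    (hg : IsCoprime g1 g2) (hab : IsCoprime a b) (h3 : ¬ (3 : ℤ) ∣ g1)
    (h : (g1 ^ 2 + 5 * (g1 * g2) + 9 * g2 ^ 2) * (a * b) = (a ^ 2 - b ^ 2) * (g1 * g2)) :
    (5 : ℤ) ∣ g1 + 2 * g2 ∧ (5 : ℤ) ∣ a + 2 * b := by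
  have hab2 : IsCoprime (a * b) (a ^ 2 - b ^ 2) := by
    refine IsCoprime.mul_left ?_ ?_
    · have h4 : IsCoprime a (-(b ^ 2)) := (hab.pow_right).neg_right
      obtain ⟨u, v, huv⟩ := h4
      exact ⟨u - v * a, v, by linear_combination huv⟩
    · have h4 : IsCoprime b (a ^ 2) := (hab.symm.pow_right)
      obtain ⟨u, v, huv⟩ := h4
      exact ⟨u + v * b, v, by linear_combination huv⟩
  have hg3 : IsCoprime g1 3 := by
    have hp : Prime (3 : ℤ) := Int.prime_three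
    exact ((Prime.coprime_iff_not_dvd hp).mpr h3).symm
  have hg12 : IsCoprime (g1 * g2) (g1 ^ 2 + 5 * (g1 * g2) + 9 * g2 ^ 2) := by
    refine IsCoprime.mul_left ?_ ?_
    · have h4 : IsCoprime g1 (3 ^ 2 * g2 ^ 2) := (hg3.pow_right).mul_right (hg.pow_right)
      obtain ⟨u, v, huv⟩ := h4
      exact ⟨u - v * g1 - 5 * v * g2, v, by linear_combination huv⟩
    · have h4 : IsCoprime g2 (g1 ^ 2) := (hg.symm.pow_right)
      obtain ⟨u, v, huv⟩ := h4
      exact ⟨u - 9 * v * g2 - 5 * v * g1, v, by linear_combination huv⟩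
  have d1 : g1 * g2 ∣ a * b := by
    have : g1 * g2 ∣ (g1 ^ 2 + 5 * (g1 * g2) + 9 * g2 ^ 2) * (a * b) := ⟨a ^ 2 - b ^ 2, by
      rw [h]; ring⟩
    exact hg12.dvd_of_dvd_mul_left this
  have d2 : a * b ∣ g1 * g2 := by
    have : a * b ∣ (a ^ 2 - b ^ 2) * (g1 * g2) :=
      ⟨g1 ^ 2 + 5 * (g1 * g2) + 9 * g2 ^ 2, by rw [← h]; ring⟩
    exact hab2.dvd_of_dvd_mul_left this
  have hassoc : g1 * g2 = a * b ∨ g1 * g2 = -(a * b) := by
    have h5 : (g1 * g2).natAbs = (a * b).natAbs := Int.natAbs_eq_of_dvd_dvd d1 d2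
    exact Int.natAbs_eq_natAbs_iff.mp h5
  have hab0 : a * b ≠ 0 := mul_ne_zero ha hb
  rcases hassoc with he | he
  · have h6 : g1 ^ 2 + 5 * (g1 * g2) + 9 * g2 ^ 2 = a ^ 2 - b ^ 2 := by
      have : (a * b) * (g1 ^ 2 + 5 * (g1 * g2) + 9 * g2 ^ 2) = (a * b) * (a ^ 2 - b ^ 2) := by
        linear_combination h + (a ^ 2 - b ^ 2) * he
      exact mul_left_cancel₀ hab0 this
    exact integral_descent hg1 hg2 ha hg hab h3 he h6
  · have h6 : g1 ^ 2 + 5 * (g1 * g2) + 9 * g2 ^ 2 = b ^ 2 - (-a) ^ 2 := by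
      have : (a * b) * (g1 ^ 2 + 5 * (g1 * g2) + 9 * g2 ^ 2) = (a * b) * (b ^ 2 - (-a) ^ 2) := by
        linear_combination h + (a ^ 2 - b ^ 2) * he
      exact mul_left_cancel₀ hab0 this
    have := integral_descent hg1 hg2 hb hg (hab.symm.neg_right) h3 (by linear_combination he) h6
    refine ⟨this.1, ?_⟩
    have h7 : a + 2 * b = 2 * (b + 2 * (-a)) + 5 * a := by ring
    rw [h7]
    exact dvd_add (Dvd.dvd.mul_left this.2 _) (Dvd.intro _ rfl)

/-- Rational points on the `X₀(15)` model `G + 9/G + 5 = X - 1/X` (with `G, X ≠ 0`, integral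
coprime coordinates) reduce to `(-2,-2)` modulo `5`. -/
theorem x0fifteen_mod_five {g1 g2 a b : ℤ} (hg1 : g1 ≠ 0) (hg2 : g2 ≠ 0) (ha : a ≠ 0) (hb : b ≠ 0)
    (hg : IsCoprime g1 g2) (hab : IsCoprime a b)
    (h : (g1 ^ 2 + 5 * (g1 * g2) + 9 * g2 ^ 2) * (a * b) = (a ^ 2 - b ^ 2) * (g1 * g2)) :
    (5 : ℤ) ∣ g1 + 2 * g2 ∧ (5 : ℤ) ∣ a + 2 * b := by
  by_cases h3 : (3 : ℤ) ∣ g1
  · obtain ⟨g', rfl⟩ := h3
    have hg'0 : g' ≠ 0 := by rintro rfl; simp at hg1
    have hg32 : ¬ (3 : ℤ) ∣ g2 := by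
      intro h4
      have := hg.isUnit_of_dvd' (Dvd.intro _ rfl : (3:ℤ) ∣ 3 * g') h4
      rw [Int.isUnit_iff] at this; omega
    by_cases h9 : (3 : ℤ) ∣ g'
    · obtain ⟨g, rfl⟩ := h9
      have hg0 : g ≠ 0 := by rintro rfl; simp at hg'0
      have hcop : IsCoprime g2 g := by
        have := hg.symm
        exact (this.of_mul_right_right).of_mul_right_right
      have := cross_descent hg2 hg0 ha hb hcop hab hg32 (by
        have : 9 * ((g2 ^ 2 + 5 * (g2 * g) + 9 * g ^ 2) * (a * b)) =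
            9 * ((a ^ 2 - b ^ 2) * (g2 * g)) := by linear_combination h
        linarith)
      refine ⟨?_, this.2⟩
      have h7 : 3 * (3 * g) + 2 * g2 = 2 * (g2 + 2 * g) + 5 * g := by ring
      rw [h7]
      exact dvd_add (Dvd.dvd.mul_left this.1 _) (Dvd.intro _ rfl)
    · exfalso
      have h8 : (3 * g' ^ 2 + 5 * (g' * g2) + 3 * g2 ^ 2) * (a * b) =
          (a ^ 2 - b ^ 2) * (g' * g2) := by
        have : 3 * ((3 * g' ^ 2 + 5 * (g' * g2) + 3 * g2 ^ 2) * (a * b)) =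
          3 * ((a ^ 2 - b ^ 2) * (g' * g2)) := by linear_combination h
        linarith
      have h10 : (3 : ℤ) ∣ (a ^ 2 + a * b - b ^ 2) * (g' * g2) := by
        refine ⟨(g' ^ 2 + 2 * (g' * g2) + g2 ^ 2) * (a * b), ?_⟩
        linear_combination (-1) * h8
      have h11 : (3 : ℤ) ∣ a ^ 2 + a * b - b ^ 2 := by
        rcases Int.prime_three.dvd_or_dvd h10 with h | h
        · exact h
        · rcases Int.prime_three.dvd_or_dvd h with h | h
          · exact absurd h h9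
          · exact absurd h hg32
      have h12 : (3 : ℤ) ∣ a ∧ (3 : ℤ) ∣ b := by
        have main : ∀ a b : ZMod 3, a ^ 2 + a * b - b ^ 2 = 0 → a = 0 ∧ b = 0 := by decide
        have := main a b (by
          have := (ZMod.intCast_zmod_eq_zero_iff_dvd _ 3).mpr h11
          push_cast at this; exact this)
        exact ⟨(ZMod.intCast_zmod_eq_zero_iff_dvd _ 3).mp this.1,
          (ZMod.intCast_zmod_eq_zero_iff_dvd _ 3).mp this.2⟩
      have := hab.isUnit_of_dvd' h12.1 h12.2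
      rw [Int.isUnit_iff] at this; omega
  · exact cross_descent hg1 hg2 ha hb hg hab h3 h

/-- The final arithmetic contradiction. `c`, `Δ` are the `c₄` and discriminant of a semistable
integral model; `t` is the Hauptmodul value on `X₀(5)`, `h` the one on `X₀(3)`, and `(G, X)` the
point on `X₀(15)`. -/
theorem no_semistable_point {c Δ : ℤ} (hΔ : Δ ≠ 0) (hss : ∀ p : ℕ, p.Prime → (p : ℤ) ∣ Δ → ¬ (p : ℤ) ∣ c)
    {t h G X : ℚ} (hG : G ≠ 0) (hX : X ≠ 0)
    (ht : (t ^ 2 + 10 * t + 5) ^ 3 * Δ = c ^ 3 * t)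
    (hh : (h + 27) * (h + 3) ^ 3 * Δ = c ^ 3 * h)
    (hGX : G + 9 / G + 5 = X - 1 / X) (hhG : h * G ^ 3 = 729 * X ^ 2) : False := by
  -- 5 does not divide c
  have h5c : ¬ (5 : ℤ) ∣ c := by
    intro h5
    have h5Δ : ¬ (5 : ℤ) ∣ Δ := fun h => hss 5 (by norm_num) (by exact_mod_cast h) (by exact_mod_cast h5)
    obtain ⟨c1, rfl⟩ := h5
    have hs0 : (t.den : ℚ) ≠ 0 := by exact_mod_cast t.den_ne_zero
    have htq : t = (t.num : ℚ) / t.den := (Rat.num_div_den t).symm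
    set r : ℤ := t.num with hr
    set s : ℤ := (t.den : ℤ) with hs
    have hsq : (t.den : ℚ) = (s : ℚ) := by rw [hs]; push_cast; rfl
    rw [hsq] at hs0 htq
    have hcop : IsCoprime r s := by
      rw [Int.isCoprime_iff_gcd_eq_one]
      have := t.reduced
      rw [hr, hs, Int.gcd]; simpa using this
    have e : (r ^ 2 + 10 * r * s + 5 * s ^ 2) ^ 3 * Δ = r * s ^ 5 * (5 * c1) ^ 3 := by
      have : (((r ^ 2 + 10 * r * s + 5 * s ^ 2) ^ 3 * Δ : ℤ) : ℚ) = ((r * s ^ 5 * (5 * c1) ^ 3 : ℤ) : ℚ) := by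
        rw [htq] at ht
        push_cast at ht ⊢
        field_simp at ht
        linear_combination ht
      exact_mod_cast this
    have hp5 : Prime (5 : ℤ) := by norm_num
    have h5r : (5 : ℤ) ∣ r := by
      have h1 : (5 : ℤ) ∣ (r ^ 2 + 10 * r * s + 5 * s ^ 2) ^ 3 * Δ := by
        rw [e]; exact ⟨r * s ^ 5 * (25 * c1 ^ 3), by ring⟩
      rcases hp5.dvd_or_dvd h1 with h2 | h2
      · have h3 := hp5.dvd_of_dvd_pow h2
        have h4 : (5 : ℤ) ∣ r ^ 2 := by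
          have : r ^ 2 = (r ^ 2 + 10 * r * s + 5 * s ^ 2) - 5 * (2 * r * s + s ^ 2) := by ring
          rw [this]; exact dvd_sub h3 (Dvd.intro _ rfl)
        exact hp5.dvd_of_dvd_pow h4
      · exact absurd h2 h5Δ
    have h5s : ¬ (5 : ℤ) ∣ s := by
      intro h
      have := hcop.isUnit_of_dvd' h5r h
      rw [Int.isUnit_iff] at this; omega
    obtain ⟨r1, hr1⟩ := h5r
    rw [hr1] at e
    have e2 : (5 * r1 ^ 2 + 10 * r1 * s + s ^ 2) ^ 3 * Δ = 5 * (r1 * s ^ 5 * c1 ^ 3) := by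
      have : 125 * ((5 * r1 ^ 2 + 10 * r1 * s + s ^ 2) ^ 3 * Δ) =
        125 * (5 * (r1 * s ^ 5 * c1 ^ 3)) := by linear_combination e
      linarith
    have h1 : (5 : ℤ) ∣ (5 * r1 ^ 2 + 10 * r1 * s + s ^ 2) ^ 3 * Δ := ⟨_, e2⟩
    rcases hp5.dvd_or_dvd h1 with h2 | h2
    · have h3 := hp5.dvd_of_dvd_pow h2
      have h4 : (5 : ℤ) ∣ s ^ 2 := by
        have : s ^ 2 = (5 * r1 ^ 2 + 10 * r1 * s + s ^ 2) - 5 * (r1 ^ 2 + 2 * r1 * s) := by ring
        rw [this]; exact dvd_sub h3 (Dvd.intro _ rfl)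
      exact h5s (hp5.dvd_of_dvd_pow h4)
    · exact h5Δ h2
  -- integral coordinates for G, X
  have hG2 : (G.den : ℚ) ≠ 0 := by exact_mod_cast G.den_ne_zero
  have hX2 : (X.den : ℚ) ≠ 0 := by exact_mod_cast X.den_ne_zero
  have hv0 : (h.den : ℚ) ≠ 0 := by exact_mod_cast h.den_ne_zero
  have hGq : G = (G.num : ℚ) / G.den := (Rat.num_div_den G).symm
  have hXq : X = (X.num : ℚ) / X.den := (Rat.num_div_den X).symm
  have hhq : h = (h.num : ℚ) / h.den := (Rat.num_div_den h).symm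
  set g1 : ℤ := G.num with hg1
  set g2 : ℤ := (G.den : ℤ) with hg2
  set a : ℤ := X.num with ha
  set b : ℤ := (X.den : ℤ) with hb
  set u : ℤ := h.num with hu
  set v : ℤ := (h.den : ℤ) with hv
  have hg2q : (G.den : ℚ) = (g2 : ℚ) := by rw [hg2]; push_cast; rfl
  have hbq : (X.den : ℚ) = (b : ℚ) := by rw [hb]; push_cast; rfl
  have hvq : (h.den : ℚ) = (v : ℚ) := by rw [hv]; push_cast; rfl
  rw [hg2q] at hG2 hGq
  rw [hbq] at hX2 hXq
  rw [hvq] at hv0 hhq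
  have hcopG : IsCoprime g1 g2 := by
    rw [Int.isCoprime_iff_gcd_eq_one]
    have := G.reduced
    rw [hg1, hg2, Int.gcd]; simpa using this
  have hcopX : IsCoprime a b := by
    rw [Int.isCoprime_iff_gcd_eq_one]
    have := X.reduced
    rw [ha, hb, Int.gcd]; simpa using this
  have hcoph : IsCoprime u v := by
    rw [Int.isCoprime_iff_gcd_eq_one]
    have := h.reduced
    rw [hu, hv, Int.gcd]; simpa using this
  have hg10 : g1 ≠ 0 := by
    intro h0; rw [h0] at hGq; simp at hGq; exact hG hGq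
  have ha0 : a ≠ 0 := by
    intro h0; rw [h0] at hXq; simp at hXq; exact hX hXq
  have hg20 : g2 ≠ 0 := by exact_mod_cast hG2
  have hb0 : b ≠ 0 := by exact_mod_cast hX2
  have hg10q : (g1 : ℚ) ≠ 0 := by exact_mod_cast hg10
  have ha0q : (a : ℚ) ≠ 0 := by exact_mod_cast ha0
  have key : (g1 ^ 2 + 5 * (g1 * g2) + 9 * g2 ^ 2) * (a * b) = (a ^ 2 - b ^ 2) * (g1 * g2) := by
    have : (((g1 ^ 2 + 5 * (g1 * g2) + 9 * g2 ^ 2) * (a * b) : ℤ) : ℚ) =
        (((a ^ 2 - b ^ 2) * (g1 * g2) : ℤ) : ℚ) := by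
      rw [hGq, hXq] at hGX
      push_cast
      field_simp at hGX
      linear_combination hGX
    exact_mod_cast this
  obtain ⟨h1, h2⟩ := x0fifteen_mod_five hg10 hg20 ha0 hb0 hcopG hcopX key
  -- 5 ∤ g2, b
  have hp5 : Prime (5 : ℤ) := by norm_num
  have hg25 : ¬ (5 : ℤ) ∣ g2 := by
    intro h3
    have h4 : (5 : ℤ) ∣ g1 := by
      have : g1 = (g1 + 2 * g2) - 2 * g2 := by ring
      rw [this]; exact dvd_sub h1 (Dvd.dvd.mul_left h3 _)
    have := hcopG.isUnit_of_dvd' h4 h3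
    rw [Int.isUnit_iff] at this; omega
  have hb5 : ¬ (5 : ℤ) ∣ b := by
    intro h3
    have h4 : (5 : ℤ) ∣ a := by
      have : a = (a + 2 * b) - 2 * b := by ring
      rw [this]; exact dvd_sub h2 (Dvd.dvd.mul_left h3 _)
    have := hcopX.isUnit_of_dvd' h4 h3
    rw [Int.isUnit_iff] at this; omega
  have e1 : u * g1 ^ 3 * b ^ 2 = 729 * a ^ 2 * g2 ^ 3 * v := by
    have : ((u * g1 ^ 3 * b ^ 2 : ℤ) : ℚ) = ((729 * a ^ 2 * g2 ^ 3 * v : ℤ) : ℚ) := by
      rw [hGq, hXq, hhq] at hhG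
      push_cast
      field_simp at hhG
      linear_combination hhG
    exact_mod_cast this
  have e2 : (u + 27 * v) * (u + 3 * v) ^ 3 * Δ = u * v ^ 3 * c ^ 3 := by
    have : (((u + 27 * v) * (u + 3 * v) ^ 3 * Δ : ℤ) : ℚ) = ((u * v ^ 3 * c ^ 3 : ℤ) : ℚ) := by
      rw [hhq] at hh
      push_cast
      field_simp at hh
      linear_combination hh
    exact_mod_cast this
  have huv : (5 : ℤ) ∣ u + 27 * v := by
    have hfact : Fact (Nat.Prime 5) := ⟨by norm_num⟩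
    have main : ∀ u v g1 g2 a b : ZMod 5, g2 ≠ 0 → b ≠ 0 → g1 = -2 * g2 → a = -2 * b →
        u * g1 ^ 3 * b ^ 2 = 729 * a ^ 2 * g2 ^ 3 * v → u + 27 * v = 0 := by
      intro u v g1 g2 a b hg2 hb e3 e4 e5
      subst e3 e4
      have h6 : (5 : ZMod 5) = 0 := by
        have := ZMod.natCast_self 5
        exact_mod_cast this
      have h7 : (g2 ^ 3 * b ^ 2) * (u + 27 * v) = 0 := by
        linear_combination 3 * e5 + (g2 ^ 3 * b ^ 2 * (5 * u + 1755 * v)) * h6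
      have h8 : g2 ^ 3 * b ^ 2 ≠ 0 := mul_ne_zero (pow_ne_zero 3 hg2) (pow_ne_zero 2 hb)
      exact (mul_eq_zero.mp h7).resolve_left h8
    have := main u v g1 g2 a b (by
        intro h; exact hg25 ((ZMod.intCast_zmod_eq_zero_iff_dvd g2 5).mp h)) (by
        intro h; exact hb5 ((ZMod.intCast_zmod_eq_zero_iff_dvd b 5).mp h)) (by
        have := (ZMod.intCast_zmod_eq_zero_iff_dvd _ 5).mpr h1
        push_cast at this; linear_combination this) (by
        have := (ZMod.intCast_zmod_eq_zero_iff_dvd _ 5).mpr h2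
        push_cast at this; linear_combination this) (by exact_mod_cast congrArg (Int.cast : ℤ → ZMod 5) e1)
    apply (ZMod.intCast_zmod_eq_zero_iff_dvd _ 5).mp
    push_cast; exact this
  have h3 : (5 : ℤ) ∣ u * v ^ 3 * c ^ 3 := by
    rw [← e2]
    exact Dvd.dvd.mul_right (Dvd.dvd.mul_right huv _) _
  have h4 : (5 : ℤ) ∣ u ∨ (5 : ℤ) ∣ v := by
    rcases hp5.dvd_or_dvd h3 with h | h
    · rcases hp5.dvd_or_dvd h with h | h
      · exact Or.inl h
      · exact Or.inr (hp5.dvd_of_dvd_pow h)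
    · exact absurd (hp5.dvd_of_dvd_pow h) h5c
  have h5 : (5 : ℤ) ∣ u ∧ (5 : ℤ) ∣ v := by
    rcases h4 with h | h
    · refine ⟨h, ?_⟩
      have : (5 : ℤ) ∣ 27 * v := by
        have : 27 * v = (u + 27 * v) - u := by ring
        rw [this]; exact dvd_sub huv h
      rcases hp5.dvd_or_dvd this with h' | h'
      · omega
      · exact h'
    · refine ⟨?_, h⟩
      have : u = (u + 27 * v) - 27 * v := by ring
      rw [this]; exact dvd_sub huv (Dvd.dvd.mul_left h _)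
  have := hcoph.isUnit_of_dvd' h5.1 h5.2
  rw [Int.isUnit_iff] at this; omega

end Fermat.Agent.H51
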