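import Fermat.Agent.H51.PointX

set_option autoImplicit false
set_option linter.unusedSectionVars false

namespace Fermat.Agent.H51

open WeierstrassCurve WeierstrassCurve.Affine

variable {K : Type*} [Field K] [DecidableEq K] {V : WeierstrassCurve.Affine K}

/-- Bezout identity for the doubling formula. -/
lemma disc_eq (x : K) : V.Δ =
    (-48 * x ^ 2 - 8 * V.b₂ * x + V.b₂ ^ 2 - 32 * V.b₄) *
      (x ^ 4 - V.b₄ * x ^ 2 - 2 * V.b₆ * x - V.b₈) +
    (12 * x ^ 3 - V.b₂ * x ^ 2 - 10 * V.b₄ * x + V.b₂ * V.b₄ - 27 * V.b₆) * psi2Sq V x := by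
  unfold psi2Sq
  rw [WeierstrassCurve.Δ]
  have := V.b_relation
  linear_combination (-12*x^2 - 2*x*V.b₂ - 8*V.b₄) * this

lemma phi2_eq (x : K) : x ^ 4 - V.b₄ * x ^ 2 - 2 * V.b₆ * x - V.b₈ =
    x * psi2Sq V x - psi3 V x := by
  unfold psi2Sq psi3; ring

lemma psi2Sq_ne_zero_of_psi3 (hΔ : V.Δ ≠ 0) {x : K} (h : psi3 V x = 0) : psi2Sq V x ≠ 0 := by
  intro h2
  apply hΔ
  rw [disc_eq x, phi2_eq, h2, h]; ring

lemma xc_two_smul' {P : V.Point} (hP : P ≠ 0) (h2 : (2 : ℕ) • P ≠ 0) :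
    (xc P - xc ((2 : ℕ) • P)) * psi2Sq V (xc P) = psi3 V (xc P) := by
  have := xc_two_smul hP h2
  rw [phi2_eq] at this
  linear_combination -this

lemma psi3_of_three {P : V.Point} (hP : P ≠ 0) (h3 : (3 : ℕ) • P = 0) : psi3 V (xc P) = 0 := by
  have h : (2 : ℕ) • P = -P := by
    rw [eq_neg_iff_add_eq_zero, ← succ_nsmul]; exact h3
  have h2 : (2 : ℕ) • P ≠ 0 := by rw [h]; exact neg_ne_zero.mpr hP
  have := xc_two_smul' hP h2
  rw [h, xc_neg, sub_self, zero_mul] at this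
  exact this.symm

lemma three_of_psi3 (hΔ : V.Δ ≠ 0) {P : V.Point} (hP : P ≠ 0) (h : psi3 V (xc P) = 0) :
    (3 : ℕ) • P = 0 := by
  have hne := psi2Sq_ne_zero_of_psi3 hΔ h
  have h2 : (2 : ℕ) • P ≠ 0 := fun h2 => hne ((two_smul_eq_zero_iff hP).mp h2)
  have := xc_two_smul' hP h2
  rw [h] at this
  have hx : xc P = xc ((2 : ℕ) • P) := by
    have := (mul_eq_zero.mp this).resolve_right hne
    exact sub_eq_zero.mp this
  rcases (xc_eq_iff hP h2).mp hx with h4 | h4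
  · exfalso
    apply hP
    have : (2 : ℕ) • P = P := h4.symm
    rw [two_nsmul] at this
    exact add_eq_right.mp this
  · rw [succ_nsmul, add_comm]
    exact eq_neg_iff_add_eq_zero.mp h4

/-- The relation satisfied by `d = x(P) - x(2P)` when `5P = 0`, in polynomial form. -/
lemma sum_form (x d : K) :
    2 * (x - d) * x * ((x - d) + x) + V.b₂ * ((x - d) * x) + V.b₄ * ((x - d) + x) + V.b₆ -
      (x + (x - d)) * ((x - d) - x) ^ 2 =
    d ^ 3 - (6 * x ^ 2 + V.b₂ * x + V.b₄) * d + psi2Sq V x := by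
  unfold psi2Sq; ring

lemma psi5_eq {x d : K} (h : d * psi2Sq V x = psi3 V x) :
    psi2Sq V x ^ 3 * (d ^ 3 - (6 * x ^ 2 + V.b₂ * x + V.b₄) * d + psi2Sq V x) = psi5 V x := by
  unfold psi5
  rw [← h]; ring

lemma psi5_of_five {P : V.Point} (hP : P ≠ 0) (h5 : (5 : ℕ) • P = 0) :
    psi5 V (xc P) = 0 ∧ (2 : ℕ) • P ≠ 0 ∧ xc ((2 : ℕ) • P) ≠ xc P ∧
      xc ((2 : ℕ) • P + P) = xc ((2 : ℕ) • P) := by
  have h2 : (2 : ℕ) • P ≠ 0 := by
    intro h2
    apply hP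
    have : (5 : ℕ) • P = (2 : ℕ) • ((2 : ℕ) • P) + P := by
      rw [← mul_nsmul, ← succ_nsmul]
    rw [this, h2] at h5
    simpa using h5
  have h3 : (3 : ℕ) • P ≠ 0 := by
    intro h3
    apply h2
    have : (5 : ℕ) • P = (3 : ℕ) • P + (2 : ℕ) • P := by rw [← add_nsmul]
    rw [this, h3, zero_add] at h5
    exact h5
  have hx : xc ((2 : ℕ) • P) ≠ xc P := by
    intro h
    rcases (xc_eq_iff h2 hP).mp h with h4 | h4
    · rw [two_nsmul] at h4
      exact hP (add_eq_right.mp h4)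
    · apply h3
      rw [succ_nsmul, h4, neg_add_cancel]
  have h32 : (2 : ℕ) • P + P = -((2 : ℕ) • P) := by
    rw [eq_neg_iff_add_eq_zero, ← succ_nsmul, ← add_nsmul]; exact h5
  have hs := xc_add_sub_sum h2 hP hx
  have h21 : (2 : ℕ) • P - P = P := by rw [two_nsmul, add_sub_cancel_right]
  rw [h32, xc_neg, h21] at hs
  have hd := xc_two_smul' hP h2
  refine ⟨?_, h2, hx, by rw [h32, xc_neg]⟩
  rw [← psi5_eq hd, ← sum_form]
  obtain ⟨x2, hx2⟩ : ∃ x2, x2 = xc ((2 : ℕ) • P) := ⟨_, rfl⟩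
  rw [← hx2] at hs ⊢
  linear_combination (-(psi2Sq V (xc P)) ^ 3) * hs

lemma five_of_psi5 (hΔ : V.Δ ≠ 0) {P : V.Point} (hP : P ≠ 0) (h : psi5 V (xc P) = 0) :
    (5 : ℕ) • P = 0 := by
  have h3ne : psi3 V (xc P) ≠ 0 := by
    intro h3
    apply psi2Sq_ne_zero_of_psi3 hΔ h3
    rw [psi5, h3] at h
    have : psi2Sq V (xc P) ^ 4 = 0 := by linear_combination h
    exact pow_eq_zero_iff (by norm_num) |>.mp this
  have h2ne : psi2Sq V (xc P) ≠ 0 := by
    intro h2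
    apply h3ne
    rw [psi5, h2] at h
    have : psi3 V (xc P) ^ 3 = 0 := by linear_combination h
    exact pow_eq_zero_iff (by norm_num) |>.mp this
  have h2 : (2 : ℕ) • P ≠ 0 := fun h2 => h2ne ((two_smul_eq_zero_iff hP).mp h2)
  have hd := xc_two_smul' hP h2
  have hx : xc ((2 : ℕ) • P) ≠ xc P := by
    intro h4
    rw [h4, sub_self, zero_mul] at hd
    exact h3ne hd.symm
  have hs := xc_add_sub_sum h2 hP hx
  have h21 : (2 : ℕ) • P - P = P := by rw [two_nsmul, add_sub_cancel_right]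
  rw [h21] at hs
  have h5 := psi5_eq hd
  rw [h] at h5
  have h6 := (mul_eq_zero.mp h5).resolve_left (pow_ne_zero 3 h2ne)
  rw [← sum_form] at h6
  -- x(3P) = x(2P)
  have h7 : xc ((2 : ℕ) • P + P) = xc ((2 : ℕ) • P) := by
    have hne : (xc ((2 : ℕ) • P) - xc P) ^ 2 ≠ 0 := pow_ne_zero 2 (sub_ne_zero.mpr hx)
    have : (xc ((2 : ℕ) • P + P) - xc ((2 : ℕ) • P)) * (xc ((2 : ℕ) • P) - xc P) ^ 2 = 0 := by
      obtain ⟨x2, hx2⟩ : ∃ x2, x2 = xc ((2 : ℕ) • P) := ⟨_, rfl⟩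
      obtain ⟨x3, hx3⟩ : ∃ x3, x3 = xc ((2 : ℕ) • P + P) := ⟨_, rfl⟩
      rw [← hx2, ← hx3] at hs ⊢
      rw [← hx2] at h6
      linear_combination hs + h6
    exact sub_eq_zero.mp ((mul_eq_zero.mp this).resolve_right hne)
  have h30 : (2 : ℕ) • P + P ≠ 0 := by
    intro h8
    apply hx
    rw [eq_neg_of_add_eq_zero_left h8, xc_neg]
  rcases (xc_eq_iff h30 h2).mp h7 with h8 | h8
  · exact absurd (by simpa using h8) hP
  · rw [eq_neg_iff_add_eq_zero, ← succ_nsmul, ← add_nsmul] at h8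
    exact h8

end Fermat.Agent.H51
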