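import Fermat.Agent.H51.NumberTheory

set_option autoImplicit false

namespace Fermat.Agent.H51

lemma sq_ne_five_mod_eight {z : ℤ} : z ^ 2 % 8 ≠ 5 := by
  have : z % 8 = 0 ∨ z % 8 = 1 ∨ z % 8 = 2 ∨ z % 8 = 3 ∨ z % 8 = 4 ∨ z % 8 = 5 ∨ z % 8 = 6 ∨
    z % 8 = 7 := by omega
  rcases this with h | h | h | h | h | h | h | h <;> simp [pow_two, Int.mul_emod, h]

lemma three_dvd_of_sq_add_sq {a b : ℤ} (h : (3 : ℤ) ∣ a ^ 2 + b ^ 2) : (3 : ℤ) ∣ a ∧ (3 : ℤ) ∣ b := by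
  have ha : a % 3 = 0 ∨ a % 3 = 1 ∨ a % 3 = 2 := by omega
  have hb : b % 3 = 0 ∨ b % 3 = 1 ∨ b % 3 = 2 := by omega
  have h' : (a ^ 2 + b ^ 2) % 3 = 0 := Int.emod_eq_zero_of_dvd h
  rcases ha with ha | ha | ha <;> rcases hb with hb | hb | hb <;>
    simp [pow_two, Int.add_emod, Int.mul_emod, ha, hb] at h' <;>
    exact ⟨Int.dvd_of_emod_eq_zero ha, Int.dvd_of_emod_eq_zero hb⟩

/-- `4e²+f²` and `e²+4f²` both squares with `e` even: impossible unless `ef = 0`. -/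
lemma final_pair {e f z y : ℤ} (he : e % 2 = 0) (he0 : e ≠ 0) (hf0 : f ≠ 0)
    (h1 : 4 * e ^ 2 + f ^ 2 = z ^ 2) (h2 : e ^ 2 + 4 * f ^ 2 = y ^ 2) : False := by
  obtain ⟨e1, rfl⟩ : ∃ e1, e = 2 * e1 := ⟨e / 2, by omega⟩
  obtain ⟨y1, rfl⟩ : ∃ y1, y = 2 * y1 := by
    have : y ^ 2 % 2 = 0 := by
      rw [← h2]
      have : (2 * e1) ^ 2 + 4 * f ^ 2 = 2 * (2 * e1 ^ 2 + 2 * f ^ 2) := by ring
      omega
    rcases Int.emod_two_eq_zero_or_one y with h | h
    · exact ⟨y / 2, by omega⟩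
    · rw [pow_two, Int.mul_emod, h] at this; norm_num at this
  have he1 : e1 ≠ 0 := by rintro rfl; simp at he0
  exact concordant_one_sixteen _ f e1 y1 z hf0 he1 (by linarith) (by linarith) rfl

/-- Lemma on the pair `U = 4C²+9D² = z²`, `V = C²-4D² = y²`. -/
lemma pair_CD {C D z y : ℤ} (hCD : IsCoprime C D) (hD : D ≠ 0)
    (hU : 4 * C ^ 2 + 9 * D ^ 2 = z ^ 2) (hV : C ^ 2 - 4 * D ^ 2 = y ^ 2) (h5 : ¬ (5 : ℤ) ∣ y) :
    False := by
  -- C ≡ y mod 2
  have hpar : (C - y) % 2 = 0 := by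
    have h1 : (C - y) * (C + y) = 4 * D ^ 2 := by linear_combination hV
    rcases Int.emod_two_eq_zero_or_one C with hC | hC <;>
    rcases Int.emod_two_eq_zero_or_one y with hy | hy
    · omega
    · exfalso
      have h2 : ((C - y) * (C + y)) % 2 = 0 := by rw [h1]; omega
      rw [Int.mul_emod] at h2
      have h3 : (C - y) % 2 = 1 := by omega
      have h4 : (C + y) % 2 = 1 := by omega
      rw [h3, h4] at h2; norm_num at h2
    · exfalso
      have h2 : ((C - y) * (C + y)) % 2 = 0 := by rw [h1]; omega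
      rw [Int.mul_emod] at h2
      have h3 : (C - y) % 2 = 1 := by omega
      have h4 : (C + y) % 2 = 1 := by omega
      rw [h3, h4] at h2; norm_num at h2
    · omega
  obtain ⟨α, hα⟩ : ∃ α, C - y = 2 * α := ⟨(C - y) / 2, by omega⟩
  obtain ⟨β, hβ⟩ : ∃ β, C + y = 2 * β := ⟨(C + y) / 2, by omega⟩
  have hC : C = α + β := by linarith
  have hy : y = β - α := by linarith
  subst hC hy
  have hαβ : α * β = D ^ 2 := by
    have : 4 * (α * β) = 4 * D ^ 2 := by linear_combination hV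
    linarith
  have hcop : IsCoprime α β := by
    have h1 : IsCoprime (α + β) (α * β) := by rw [hαβ]; exact hCD.pow_right
    have h2 : IsCoprime (α + β) α := h1.of_mul_right_left
    have h3 : IsCoprime β α := by
      obtain ⟨u, v, huv⟩ := h2
      exact ⟨u, u + v, by linear_combination huv⟩
    exact h3.symm
  -- α = σ e², β = σ f²
  obtain ⟨σ, e, f, hσ, hαe, hβf⟩ : ∃ σ e f : ℤ, σ ^ 2 = 1 ∧ α = σ * e ^ 2 ∧ β = σ * f ^ 2 := by
    obtain ⟨e, he⟩ := Int.sq_of_isCoprime hcop hαβ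
    obtain ⟨f, hf⟩ := Int.sq_of_isCoprime hcop.symm (by rw [mul_comm]; exact hαβ)
    have hD2 : 0 < D ^ 2 := by positivity
    rcases he with he | he <;> rcases hf with hf | hf
    · exact ⟨1, e, f, by norm_num, by linarith, by linarith⟩
    · exfalso
      rw [← hαβ, he, hf] at hD2
      nlinarith [sq_nonneg e, sq_nonneg f, mul_nonneg (sq_nonneg e) (sq_nonneg f)]
    · exfalso
      rw [← hαβ, he, hf] at hD2
      nlinarith [sq_nonneg e, sq_nonneg f, mul_nonneg (sq_nonneg e) (sq_nonneg f)]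
    · exact ⟨-1, e, f, by norm_num, by linarith, by linarith⟩
  subst hαe hβf
  have hσD : e ^ 2 * f ^ 2 = D ^ 2 := by
    rw [← hαβ]
    have : σ * e ^ 2 * (σ * f ^ 2) = σ ^ 2 * (e ^ 2 * f ^ 2) := by ring
    rw [this, hσ]; ring
  have hef : IsCoprime e f := by
    have h1 : IsCoprime (e ^ 2) (f ^ 2) := by
      obtain ⟨u, v, huv⟩ := hcop
      exact ⟨u * σ, v * σ, by linear_combination huv⟩
    exact (IsCoprime.pow_iff (by norm_num) (by norm_num)).mp h1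
  have he0 : e ≠ 0 := by rintro rfl; exact hD (by simpa using hσD.symm)
  have hf0 : f ≠ 0 := by rintro rfl; exact hD (by simpa using hσD.symm)
  have hz : (4 * e ^ 2 + f ^ 2) * (e ^ 2 + 4 * f ^ 2) = z ^ 2 := by
    rw [← hU, ← hσD]
    linear_combination (-4 * (e ^ 2 + f ^ 2) ^ 2) * hσ
  have hpos : 0 < 4 * e ^ 2 + f ^ 2 := by positivity
  obtain ⟨k, z1, y1, hk0, hksq, hk1, hk2⟩ := exists_squarefree_of_mul_eq_sq hpos hz
  have hk15 : k ∣ 15 := by
    refine dvd_of_dvd_mul_sq hef ?_ ?_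
    · exact ⟨4 * z1 ^ 2 - y1 ^ 2, by linear_combination 4 * hk1 - hk2⟩
    · exact ⟨4 * y1 ^ 2 - z1 ^ 2, by linear_combination 4 * hk2 - hk1⟩
  have h3 : ¬ (3 : ℤ) ∣ k := by
    intro h3
    have h4 : (3 : ℤ) ∣ e ^ 2 + f ^ 2 := by
      have h4 : (3 : ℤ) ∣ 4 * e ^ 2 + f ^ 2 := by rw [hk1]; exact Dvd.dvd.mul_right h3 _
      have h6 : e ^ 2 + f ^ 2 = (4 * e ^ 2 + f ^ 2) - 3 * e ^ 2 := by ring
      rw [h6]
      exact dvd_sub h4 (Dvd.intro _ rfl)
    obtain ⟨h5, h6⟩ := three_dvd_of_sq_add_sq h4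
    have := hef.isUnit_of_dvd' h5 h6
    rw [Int.isUnit_iff] at this
    omega
  have h5' : ¬ (5 : ℤ) ∣ k := by
    intro h6
    have h7 : (5 : ℤ) ∣ 4 * e ^ 2 + f ^ 2 := by rw [hk1]; exact Dvd.dvd.mul_right h6 _
    apply h5
    have h8 : σ * f ^ 2 - σ * e ^ 2 = σ * ((4 * e ^ 2 + f ^ 2) - 5 * e ^ 2) := by ring
    rw [h8]
    exact Dvd.dvd.mul_left (dvd_sub h7 (Dvd.intro _ rfl)) _
  have hk : k = 1 := by
    rcases dvd_fifteen hk0 hk15 with h | h | h | h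
    · exact h
    · subst h; exact absurd (by norm_num) h3
    · subst h; exact absurd (by norm_num) h5'
    · subst h; exact absurd (by norm_num) h3
  subst hk
  rw [one_mul] at hk1 hk2
  rcases Int.emod_two_eq_zero_or_one e with he | he
  · exact final_pair he he0 hf0 hk1 hk2
  · rcases Int.emod_two_eq_zero_or_one f with hf | hf
    · exact final_pair (z := y1) (y := z1) hf hf0 he0 (by linarith) (by linarith)
    · have h1 := sq_emod_eight_of_odd he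
      have h2 := sq_emod_eight_of_odd hf
      exact sq_ne_five_mod_eight (z := z1) (by omega)

/-- Integral descent lemma. -/
lemma integral_descent {g1 g2 a b : ℤ} (hg1 : g1 ≠ 0) (hg2 : g2 ≠ 0) (ha : a ≠ 0)
    (hg : IsCoprime g1 g2) (hab : IsCoprime a b) (h3 : ¬ (3 : ℤ) ∣ g1)
    (h1 : g1 * g2 = a * b) (h2 : g1 ^ 2 + 5 * (g1 * g2) + 9 * g2 ^ 2 = a ^ 2 - b ^ 2) :
    (5 : ℤ) ∣ g1 + 2 * g2 ∧ (5 : ℤ) ∣ a + 2 * b := by
  -- g1 = A C, b = A D, g2 = B D, a = B C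
  obtain ⟨C, A, D, B, e1, e2, e3, e4, e5⟩ :
      ∃ C A D B : ℤ, g1 = C * A ∧ g2 = D * B ∧ a = C * B ∧ b = A * D ∧ True := by
    obtain ⟨C, A, B, D, e1, e2, e3, e4, -⟩ := four_numbers hg1 h1
    exact ⟨C, A, D, B, e1, by rw [e2]; ring, e3, e4, trivial⟩
  subst e1 e2 e3 e4
  have hC0 : C ≠ 0 := by rintro rfl; simp at hg1
  have hA0 : A ≠ 0 := by rintro rfl; simp at hg1
  have hD0 : D ≠ 0 := by rintro rfl; simp at hg2
  have hB0 : B ≠ 0 := by rintro rfl; simp at hg2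
  have hCD : IsCoprime C D := hg.of_mul_left_left.of_mul_right_left
  have key : (2 * A * (C ^ 2 + D ^ 2) + 5 * B * C * D) ^ 2 =
      B ^ 2 * ((4 * C ^ 2 + 9 * D ^ 2) * (C ^ 2 - 4 * D ^ 2)) := by
    linear_combination (4 * (C ^ 2 + D ^ 2)) * h2
  have hB : B ∣ 2 * A * (C ^ 2 + D ^ 2) + 5 * B * C * D := by
    have : B ^ 2 ∣ (2 * A * (C ^ 2 + D ^ 2) + 5 * B * C * D) ^ 2 := ⟨_, key⟩
    exact (Int.pow_dvd_pow_iff (by norm_num)).mp this
  obtain ⟨Z, hZ⟩ := hB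
  have hUV : (4 * C ^ 2 + 9 * D ^ 2) * (C ^ 2 - 4 * D ^ 2) = Z ^ 2 := by
    have : B ^ 2 * ((4 * C ^ 2 + 9 * D ^ 2) * (C ^ 2 - 4 * D ^ 2)) = B ^ 2 * Z ^ 2 := by
      rw [← key, hZ]; ring
    exact mul_left_cancel₀ (pow_ne_zero 2 hB0) this
  have hpos : 0 < 4 * C ^ 2 + 9 * D ^ 2 := by positivity
  obtain ⟨k, z, y, hk0, hksq, hk1, hk2⟩ := exists_squarefree_of_mul_eq_sq hpos hUV
  have hk25 : k ∣ 25 := by
    refine dvd_of_dvd_mul_sq hCD ?_ ?_
    · exact ⟨4 * z ^ 2 + 9 * y ^ 2, by linear_combination 4 * hk1 + 9 * hk2⟩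
    · exact ⟨z ^ 2 - 4 * y ^ 2, by linear_combination hk1 - 4 * hk2⟩
  have hk5 : k ∣ 5 := by
    have : k ∣ 5 ^ 2 := by norm_num; exact hk25
    exact (hksq.dvd_pow_iff_dvd (by norm_num)).mp this
  have hk : k = 1 := by
    have hle : k ≤ 5 := Int.le_of_dvd (by norm_num) hk5
    have h15 : k = 1 ∨ k = 5 := by
      interval_cases k <;> simp_all
    rcases h15 with h | h
    · exact h
    · exfalso
      subst h
      apply h3
      have h4 : (3 : ℤ) ∣ C ^ 2 + z ^ 2 := by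
        have : C ^ 2 + z ^ 2 = 3 * (-C ^ 2 - 3 * D ^ 2 + 2 * z ^ 2) := by linear_combination hk1
        exact ⟨_, this⟩
      exact Dvd.dvd.mul_right (three_dvd_of_sq_add_sq h4).1 A
  subst hk
  rw [one_mul] at hk1 hk2
  by_cases h5 : (5 : ℤ) ∣ y
  · obtain ⟨y1, rfl⟩ := h5
    have hD5 : ¬ (5 : ℤ) ∣ D := by
      intro h
      have hC5 : (5 : ℤ) ∣ C := by
        have : (5 : ℤ) ∣ C ^ 2 := by
          have h7 : C ^ 2 = 5 * (5 * y1 ^ 2) + 4 * D ^ 2 := by linear_combination hk2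
          rw [h7]
          exact dvd_add (Dvd.intro _ rfl)
            (Dvd.dvd.mul_left (Dvd.dvd.pow h (by norm_num)) _)
        exact Int.Prime.dvd_pow' (by norm_num : Nat.Prime 5) (by exact_mod_cast this)
      have := hCD.isUnit_of_dvd' hC5 h
      rw [Int.isUnit_iff] at this
      omega
    have h6 : (5 : ℤ) ∣ D * (A ^ 2 * D + A * B * C + B ^ 2 * D) := by
      have : D * (A ^ 2 * D + A * B * C + B ^ 2 * D) = 5 * (-(A ^ 2 * y1 ^ 2) + B ^ 2 * y1 ^ 2) := by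
        have h8 : 5 * (D * (A ^ 2 * D + A * B * C + B ^ 2 * D)) =
            5 * (5 * (-(A ^ 2 * y1 ^ 2) + B ^ 2 * y1 ^ 2)) := by
          linear_combination h2 - (A ^ 2 - B ^ 2) * hk2
        linarith
      exact ⟨_, this⟩
    have h7 : (5 : ℤ) ∣ A ^ 2 * D + A * B * C + B ^ 2 * D := by
      rcases Int.Prime.dvd_mul' (by norm_num : Nat.Prime 5) (by exact_mod_cast h6) with h | h
      · exact absurd (by exact_mod_cast h) hD5
      · exact_mod_cast h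
    have h8 : (5 : ℤ) ∣ C ^ 2 - 4 * D ^ 2 := ⟨5 * y1 ^ 2, by linear_combination hk2⟩
    have main : ∀ A B C D : ZMod 5, D ≠ 0 → A ^ 2 * D + A * B * C + B ^ 2 * D = 0 →
        C ^ 2 - 4 * D ^ 2 = 0 → C * A + 2 * (D * B) = 0 ∧ C * B + 2 * (A * D) = 0 := by
      decide
    have := main A B C D (by
      intro h
      exact hD5 ((ZMod.intCast_zmod_eq_zero_iff_dvd D 5).mp h)) (by
      have := (ZMod.intCast_zmod_eq_zero_iff_dvd _ 5).mpr h7
      push_cast at this; exact this) (by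
      have := (ZMod.intCast_zmod_eq_zero_iff_dvd _ 5).mpr h8
      push_cast at this; exact this)
    constructor
    · apply (ZMod.intCast_zmod_eq_zero_iff_dvd _ 5).mp
      push_cast; exact this.1
    · apply (ZMod.intCast_zmod_eq_zero_iff_dvd _ 5).mp
      push_cast; exact this.2
  · exact (pair_CD hCD hD0 hk1 hk2 h5).elim

end Fermat.Agent.H51
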